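import Fermat.Agent.Galois.Flat.Points
import Fermat.Agent.Basic.FrobeniusExists
import Mathlib.NumberTheory.Padics.PadicVal.Basic

/-!
# Consequences of the existence of the connected part

Functoriality and uniqueness of the connected part, groups of order `p`, splitting of the
extensions of a cyclotomic module by an unramified one, and the peu ramifié criterion with
`padicValRat`.
-/

set_option autoImplicit false

noncomputable section

namespace FermatLib.Galois.Flat

local notation "Qbar" => AlgebraicClosure ℚ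
local notation "Γℚ" => (AlgebraicClosure ℚ ≃ₐ[ℚ] AlgebraicClosure ℚ)

variable {A : ValuationSubring Qbar} {p : ℕ} {M : Type*} [AddCommGroup M] {act : Γℚ → M →+ M}

lemma isInertiaStable_bot : IsInertiaStable A act ⊥ := fun σ _ n hn => by
  rw [AddSubgroup.mem_bot] at hn ⊢
  rw [hn, map_zero]

/-- Some inertia element moves a primitive `p`-th root of unity when `p > 2`. -/
theorem exists_inertia_apply_ne (hp : p.Prime) (hp2 : p ≠ 2) (hA : A.LiesOverPrime p) {ζ : Qbar}
    (hζ : IsPrimitiveRoot ζ p) : ∃ σ ∈ A.inertiaSubgroupIn ℚ, σ ζ ≠ ζ := by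
  by_contra! h
  obtain ⟨k, hk⟩ := exists_valuation_eq_zpow hp hA (x := ζ - 1)
    (sub_ne_zero.mpr (hζ.ne_one hp.one_lt)) fun σ hσ => by rw [map_sub, h σ hσ, map_one]
  have h1 := valuation_sub_one_pow hp hA hζ
  rw [hk, ← zpow_natCast, ← zpow_mul] at h1
  have h2 : k * ((p - 1 : ℕ) : ℤ) = 1 :=
    valuation_zpow_injective hp hA (h1.trans (zpow_one _).symm)
  have h3 : ((p - 1 : ℕ) : ℤ) = 1 := Int.eq_one_of_mul_eq_one_left (by positivity) h2
  have := hp.two_le
  omega

/-- The exponent of an automorphism on `μ_p`. -/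
theorem exists_exponent (hp : p.Prime) (σ : Γℚ) :
    ∃ a : ℕ, ∀ μ : Qbar, μ ^ p = 1 → σ μ = μ ^ a := by
  have : NeZero p := ⟨hp.ne_zero⟩
  obtain ⟨ζ, hζ⟩ := HasEnoughRootsOfUnity.exists_primitiveRoot Qbar p
  obtain ⟨a, -, ha⟩ := hζ.eq_pow_of_pow_eq_one
    (show σ ζ ^ p = 1 by rw [← map_pow, hζ.pow_eq_one, map_one])
  refine ⟨a, fun μ hμ => ?_⟩
  obtain ⟨i, -, rfl⟩ := hζ.eq_pow_of_pow_eq_one hμ
  rw [map_pow, ← ha, ← pow_mul, ← pow_mul, mul_comm]

namespace IsConnectedPart

variable {C : AddSubgroup M}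

lemma isInertiaStable (hC : IsConnectedPart A p act C) : IsInertiaStable A act C :=
  fun σ hσ x hx => hC.decomposition_stable σ (mem_decomposition_of_mem_inertia hσ) x hx

/-- An inertia-stable subgroup with unramified quotient contains the connected part. -/
theorem le_of_quotient_fixed (hC : IsConnectedPart A p act C) {N : AddSubgroup M}
    (hN : IsInertiaStable A act N) (htors : ∀ x : M, ∃ k : ℕ, p ^ k • x = 0)
    (hfix : ∀ σ ∈ A.inertiaSubgroupIn ℚ, ∀ x, act σ x - x ∈ N) : C ≤ N := fun x hx => by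
  obtain ⟨k, hk⟩ := htors x
  exact hC.mem_of_fixed N hN x hx k (by rw [hk]; exact N.zero_mem) fun σ hσ => hfix σ hσ x

/-- The connected part is functorial for inertia-equivariant maps. -/
theorem map_le {M' : Type*} [AddCommGroup M'] {act' : Γℚ → M' →+ M'} {C' : AddSubgroup M'}
    (hC : IsConnectedPart A p act C) (hC' : IsConnectedPart A p act' C')
    (htors : ∀ x : M, ∃ k : ℕ, p ^ k • x = 0) (f : M →+ M')
    (hf : ∀ σ ∈ A.inertiaSubgroupIn ℚ, ∀ x, f (act σ x) = act' σ (f x)) : C.map f ≤ C' :=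
  AddSubgroup.map_le_iff_le_comap.mpr (hC.le_of_quotient_fixed
    (fun σ hσ n hn => by
      rw [AddSubgroup.mem_comap] at hn ⊢
      rw [hf σ hσ]
      exact hC'.isInertiaStable σ hσ _ hn) htors fun σ hσ x => by
    rw [AddSubgroup.mem_comap, map_sub, hf σ hσ]
    exact hC'.inertia_sub_mem σ hσ _)

/-- The connected part is stable under any endomorphism commuting with inertia. -/
theorem apply_mem (hC : IsConnectedPart A p act C) (htors : ∀ x : M, ∃ k : ℕ, p ^ k • x = 0)
    (f : M →+ M) (hf : ∀ σ ∈ A.inertiaSubgroupIn ℚ, ∀ x, f (act σ x) = act σ (f x)) {x : M}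
    (hx : x ∈ C) : f x ∈ C :=
  hC.map_le hC htors f hf ⟨x, hx, rfl⟩

end IsConnectedPart

end FermatLib.Galois.Flat
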