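import Fermat.Agent.Galois.Flat.Valuation
import Fermat.Agent.EC.InertiaMinkowski
import Mathlib.NumberTheory.RamificationInertia.Galois
import Mathlib.NumberTheory.RamificationInertia.HilbertTheory

/-!
# Elements fixed by inertia have valuation a power of the valuation of `p`
-/

set_option autoImplicit false

noncomputable section

open scoped Pointwise

namespace FermatLib.Galois.Flat

local notation "Qbar" => AlgebraicClosure ℚ

local instance ramification_isAlgebraic : Algebra.IsAlgebraic ℚ Qbar :=
  AlgebraicClosure.isAlgebraic ℚ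

local instance ramification_isGalois : IsGalois ℚ Qbar :=
  have : IsAlgClosure ℚ Qbar := ⟨inferInstance, inferInstance⟩
  have : Normal ℚ Qbar := IsAlgClosure.normal ℚ Qbar
  { }

variable {A : ValuationSubring Qbar} {p : ℕ}

/-- At a prime of ramification index one, the localization has `p` as uniformizer. -/
lemma maximalIdeal_eq_span_of_ramificationIdx_eq_one {O : Type*} [CommRing O] (q : Ideal O)
    [q.IsPrime] {p : ℕ} (hq : q.under ℤ = Ideal.span {(p : ℤ)})
    (h : q.ramificationIdx ℤ = 1) :
    IsLocalRing.maximalIdeal (Localization.AtPrime q) =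
      Ideal.span {(p : Localization.AtPrime q)} := by
  rw [Ideal.ramificationIdx_def, ENat.toNat_eq_iff_eq_natCast, Nat.cast_one,
    Module.length_eq_one_iff, isSimpleModule_iff_isCoatom, ← Ideal.isMaximal_def, hq,
    Ideal.map_span, Set.image_singleton, map_natCast] at h
  exact (IsLocalRing.eq_maximalIdeal h).symm

theorem exists_valuation_eq_zpow (hp : p.Prime) (hA : A.LiesOverPrime p) {x : Qbar} (hx : x ≠ 0)
    (hfix : ∀ σ ∈ A.inertiaSubgroupIn ℚ, σ x = x) :
    ∃ k : ℤ, A.valuation x = A.valuation (p : Qbar) ^ k := by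
  classical
  let F : IntermediateField ℚ Qbar := IntermediateField.adjoin ℚ {x}
  have : FiniteDimensional ℚ F :=
    IntermediateField.adjoin.finiteDimensional (Algebra.IsAlgebraic.isAlgebraic x).isIntegral
  let K : IntermediateField ℚ Qbar := IntermediateField.normalClosure ℚ F Qbar
  have : FiniteDimensional ℚ K := normalClosure.is_finiteDimensional ℚ F Qbar
  have : IsGalois ℚ K := IsGalois.normalClosure ℚ F Qbar
  have : NumberField K := ⟨⟩
  have hxK : x ∈ K :=
    IntermediateField.le_normalClosure F (IntermediateField.mem_adjoin_simple_self ℚ x)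
  let O := NumberField.RingOfIntegers K
  let φ : O →+* A := (((algebraMap K Qbar).comp (algebraMap O K)).codRestrict A.toSubring
    fun a => mem_A_of_isIntegral A
      ((NumberField.RingOfIntegers.isIntegral_coe a).map ((algebraMap K Qbar).toIntAlgHom)))
  let P : Ideal O := (IsLocalRing.maximalIdeal A).comap φ
  have : P.IsPrime := Ideal.IsPrime.comap φ
  have hP : ∀ a : O, a ∈ P ↔ A.valuation ((a : K) : Qbar) < 1 := fun a =>
    A.valuation_lt_one_iff _
  have hpP : P.under ℤ = Ideal.span {(p : ℤ)} := by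
    ext z
    rw [Ideal.mem_comap, hP, Ideal.mem_span_singleton]
    have e : (((algebraMap ℤ O z : O) : K) : Qbar) = (z : Qbar) := by simp
    rw [e]
    refine ⟨dvd_of_valuation_intCast_lt_one hp hA, ?_⟩
    rintro ⟨c, rfl⟩
    rw [Int.cast_mul, Int.cast_natCast, map_mul]
    exact mul_lt_one_of_nonneg_of_lt_one_left zero_le (valuation_prime_lt_one hA)
      ((A.valuation_le_one_iff _).mpr (intCast_mem A c))
  let : MulSemiringAction Gal(K/ℚ) O := IsIntegralClosure.MulSemiringAction ℤ ℚ K O
  have hGal : IsGaloisGroup Gal(K/ℚ) ℤ O := IsGaloisGroup.of_isFractionRing Gal(K/ℚ) ℤ O ℚ K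
  let I : Subgroup Gal(K/ℚ) := P.inertia Gal(K/ℚ)
  let E : IntermediateField ℚ K := FixedPoints.intermediateField I
  have hIE : IsGaloisGroup I E K := IsGaloisGroup.subgroup Gal(K/ℚ) ℚ K I
  have hxE : (⟨x, hxK⟩ : K) ∈ E := by
    intro τ
    obtain ⟨σ, hσ, hσK⟩ := FermatLib.EC.exists_inertia_lift_at K hp A hA P
      (fun a ha => A.mem_nonunits_iff.mpr ((hP a).mp ha)) τ.1 (fun a a' h => by
        have hsm : a' = τ.1 • a := NumberField.RingOfIntegers.ext (by
          rw [h]
          exact (algebraMap_galRestrict_apply (A := ℤ) (K := ℚ) (L := K) (B := O) τ.1 a).symm)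
        rw [hsm]
        exact τ.2 a)
    apply Subtype.ext
    change ((τ.1 ⟨x, hxK⟩ : K) : Qbar) = x
    rw [← hσK]
    exact hfix σ hσ
  let OE := NumberField.RingOfIntegers E
  have : IsGaloisGroup I OE O := IsGaloisGroup.of_isFractionRing I OE O E K
  let q : Ideal OE := P.under OE
  have hqp : q.under ℤ = Ideal.span {(p : ℤ)} := by rw [Ideal.under_under, hpP]
  have : P.LiesOver q := ⟨rfl⟩
  have : P.LiesOver (Ideal.span {(p : ℤ)}) := ⟨hpP.symm⟩
  have hp0 : Ideal.span {(p : ℤ)} ≠ ⊥ := by simpa using hp.ne_zero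
  have : (Ideal.span {(p : ℤ)}).IsPrime :=
    (Ideal.span_singleton_prime (by exact_mod_cast hp.ne_zero)).mpr (Nat.prime_iff_prime_int.mp hp)
  have : (Ideal.span {(p : ℤ)}).IsMaximal := Ideal.IsPrime.isMaximal inferInstance hp0
  have hq0 : q ≠ ⊥ := by
    intro h
    apply hp0
    rw [← hqp, h, Ideal.under_bot]
  have : q.IsMaximal := Ideal.IsPrime.isMaximal inferInstance hq0
  have : Finite (ℤ ⧸ Ideal.span {(p : ℤ)}) := Ideal.finiteQuotientOfFreeOfNeBot _ hp0
  have : Finite (OE ⧸ q) := Ideal.finiteQuotientOfFreeOfNeBot _ hq0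
  have he : q.ramificationIdx ℤ = 1 := by
    have h1 := Ideal.card_inertia_eq_ramificationIdxIn (G := Gal(K/ℚ)) (Ideal.span {(p : ℤ)}) P
    rw [Ideal.ramificationIdxIn_eq_ramificationIdx _ P Gal(K/ℚ)] at h1
    have h2 := Ideal.card_inertia_eq_ramificationIdxIn (G := I) q P
    rw [Ideal.ramificationIdxIn_eq_ramificationIdx _ P I] at h2
    have htop : P.inertia I = ⊤ := eq_top_iff.mpr fun τ _ => fun a => τ.2 a
    rw [htop, Subgroup.card_top] at h2
    have h3 := Ideal.ramificationIdx_tower (R := ℤ) q P
    rw [← h1, ← h2] at h3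
    exact (mul_left_eq_self₀.mp h3.symm).resolve_right Nat.card_pos.ne'
  have : IsDiscreteValuationRing (Localization.AtPrime q) :=
    IsLocalization.AtPrime.isDiscreteValuationRing_of_dedekind_domain OE hq0 _
  have hirr : Irreducible (p : Localization.AtPrime q) :=
    (IsDiscreteValuationRing.irreducible_iff_uniformizer _).mpr
      (maximalIdeal_eq_span_of_ramificationIdx_eq_one q hqp he)
  have hunit : ∀ s : OE, s ∉ q → A.valuation (((s : E) : K) : Qbar) = 1 := by
    intro s hs
    refine le_antisymm ?_ (not_lt.mp fun h => hs ((hP (algebraMap OE O s)).mpr h))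
    exact (A.valuation_le_one_iff _).mpr (φ (algebraMap OE O s)).2
  have key : ∀ y : OE, y ≠ 0 →
      ∃ n : ℕ, A.valuation (((y : E) : K) : Qbar) = A.valuation (p : Qbar) ^ n := by
    intro y hy
    have hy' : algebraMap OE (Localization.AtPrime q) y ≠ 0 := by
      simpa using (map_ne_zero_iff _
        (IsLocalization.injective (Localization.AtPrime q) q.primeCompl_le_nonZeroDivisors)).mpr hy
    obtain ⟨n, u, hu⟩ := IsDiscreteValuationRing.eq_unit_mul_pow_irreducible hy' hirr
    obtain ⟨⟨a, s⟩, has⟩ := IsLocalization.surj q.primeCompl (u : Localization.AtPrime q)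
    have ha : a ∉ q := by
      intro ha
      have hmem : algebraMap OE (Localization.AtPrime q) a ∈
          IsLocalRing.maximalIdeal (Localization.AtPrime q) := by
        rw [← Localization.AtPrime.map_eq_maximalIdeal]
        exact Ideal.mem_map_of_mem _ ha
      rw [← has, IsLocalRing.mem_maximalIdeal, mem_nonunits_iff] at hmem
      exact hmem (u.isUnit.mul (IsLocalization.map_units _ s))
    have heq : y * (s : OE) = (p : OE) ^ n * a := by
      apply IsLocalization.injective (Localization.AtPrime q) q.primeCompl_le_nonZeroDivisors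
      rw [map_mul, map_mul, map_pow, map_natCast, ← has, hu]
      ring
    refine ⟨n, ?_⟩
    have := congrArg (fun z : OE => A.valuation (((z : E) : K) : Qbar)) heq
    simpa [hunit _ s.2, hunit _ ha] using this
  obtain ⟨a, b, hb, hab⟩ := IsFractionRing.div_surjective OE (⟨⟨x, hxK⟩, hxE⟩ : E)
  have hb0 : b ≠ 0 := nonZeroDivisors.ne_zero hb
  have ha0 : a ≠ 0 := by
    rintro rfl
    rw [map_zero, zero_div] at hab
    exact hx (congrArg (fun z : E => ((z : K) : Qbar)) hab).symm
  obtain ⟨m, hm⟩ := key a ha0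
  obtain ⟨n, hn⟩ := key b hb0
  refine ⟨(m : ℤ) - n, ?_⟩
  have hxab : x = (((a : E) : K) : Qbar) / (((b : E) : K) : Qbar) := by
    simpa using (congrArg (fun z : E => ((z : K) : Qbar)) hab).symm
  rw [hxab, map_div₀, hm, hn, zpow_sub₀ (valuation_prime_ne_zero hp), zpow_natCast, zpow_natCast]

end FermatLib.Galois.Flat
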