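import Fermat.Prelude.Def_FLTPrelim_Ramification
import Mathlib.RingTheory.Polynomial.Cyclotomic.Eval
import Mathlib.RingTheory.Polynomial.Cyclotomic.Expand
import Mathlib.FieldTheory.IsAlgClosed.AlgebraicClosure
import Mathlib.RingTheory.RootsOfUnity.Minpoly

/-!
# Valuations of elements of `ℚ̄` at a place over `p` and the action of inertia
-/

set_option autoImplicit false

open scoped Pointwise

namespace FermatLib.Galois.Flat

local notation "Qbar" => AlgebraicClosure ℚ
local notation "Γℚ" => (AlgebraicClosure ℚ ≃ₐ[ℚ] AlgebraicClosure ℚ)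

variable {A : ValuationSubring Qbar}

local instance flat_isAlgebraic : Algebra.IsAlgebraic ℚ Qbar :=
  AlgebraicClosure.isAlgebraic ℚ

lemma mem_A_of_isIntegral (A : ValuationSubring Qbar) {x : Qbar} (hx : IsIntegral ℤ x) :
    x ∈ A := by
  obtain ⟨y, hy⟩ := IsIntegrallyClosed.isIntegral_iff.mp (hx.tower_top : IsIntegral A x)
  exact hy ▸ y.2

lemma mem_decomposition_of_mem_inertia {σ : Γℚ} (hσ : σ ∈ A.inertiaSubgroupIn ℚ) :
    σ ∈ A.decompositionSubgroup ℚ := by
  obtain ⟨τ, -, rfl⟩ := hσ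
  exact τ.2

lemma apply_mem_of_decomposition {σ : Γℚ} (hσ : σ ∈ A.decompositionSubgroup ℚ) {a : Qbar}
    (ha : a ∈ A) : σ a ∈ A :=
  ((⟨σ, hσ⟩ : A.decompositionSubgroup ℚ) • (⟨a, ha⟩ : A)).2

lemma valuation_apply_sub_lt_one {σ : Γℚ} (hσ : σ ∈ A.inertiaSubgroupIn ℚ) {a : Qbar}
    (ha : a ∈ A) : A.valuation (σ a - a) < 1 := by
  obtain ⟨τ, hτ, rfl⟩ := hσ
  have h1 : IsLocalRing.residue A (τ • (⟨a, ha⟩ : A)) = IsLocalRing.residue A ⟨a, ha⟩ :=
    RingEquiv.congr_fun (MonoidHom.mem_ker.mp hτ) (IsLocalRing.residue A ⟨a, ha⟩)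
  have h2 : τ • (⟨a, ha⟩ : A) - ⟨a, ha⟩ ∈ IsLocalRing.maximalIdeal A :=
    Ideal.Quotient.eq.mp h1
  exact (A.valuation_lt_one_iff _).mp h2

lemma valuation_apply_le_iff {σ : Γℚ} (hσ : σ ∈ A.decompositionSubgroup ℚ) {x y : Qbar} :
    A.valuation (σ x) ≤ A.valuation (σ y) ↔ A.valuation x ≤ A.valuation y := by
  constructor
  · intro h
    obtain ⟨a, ha⟩ := (A.valuation_le_iff _ _).mp h
    refine (A.valuation_le_iff _ _).mpr
      ⟨⟨σ⁻¹ a, apply_mem_of_decomposition (inv_mem hσ) a.2⟩, ?_⟩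
    apply σ.injective
    rw [map_mul, ← ha]
    congr 1
    exact σ.apply_symm_apply _
  · intro h
    obtain ⟨a, ha⟩ := (A.valuation_le_iff _ _).mp h
    refine (A.valuation_le_iff _ _).mpr ⟨⟨σ a, apply_mem_of_decomposition hσ a.2⟩, ?_⟩
    rw [← ha, map_mul]

lemma apply_iterate_eq (σ : Γℚ) (k : ℕ) (x : Qbar) : (σ ^ k) x = σ^[k] x := by
  induction k with
  | zero => simp
  | succ k ih => rw [pow_succ', Function.iterate_succ_apply', ← ih]; rfl

lemma exists_iterate_eq_self (σ : Γℚ) (x : Qbar) : ∃ n, 0 < n ∧ σ^[n] x = x := by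
  classical
  have hint : IsIntegral ℚ x := (Algebra.IsAlgebraic.isAlgebraic x).isIntegral
  have hmem : ∀ k : ℕ, σ^[k] x ∈ (minpoly ℚ x).rootSet Qbar := fun k => by
    rw [← apply_iterate_eq, Polynomial.mem_rootSet]
    refine ⟨minpoly.ne_zero hint, ?_⟩
    rw [Polynomial.aeval_algEquiv, AlgHom.comp_apply, minpoly.aeval, map_zero]
  obtain ⟨i, j, hij, h⟩ : ∃ i j : ℕ, i ≠ j ∧ σ^[i] x = σ^[j] x := by
    have := Finite.exists_ne_map_eq_of_infinite
      (fun k : ℕ => (⟨σ^[k] x, hmem k⟩ : (minpoly ℚ x).rootSet Qbar))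
    obtain ⟨i, j, hij, h⟩ := this
    exact ⟨i, j, hij, congrArg Subtype.val h⟩
  wlog hlt : i < j generalizing i j
  · exact this j i hij.symm h.symm (lt_of_le_of_ne (not_lt.mp hlt) hij.symm)
  refine ⟨j - i, by omega, ?_⟩
  have : σ^[i] (σ^[j - i] x) = σ^[i] x := by
    rw [← Function.iterate_add_apply, Nat.add_sub_cancel' hlt.le, h]
  exact σ.injective.iterate i this

/-- The decomposition group preserves the valuation. -/
lemma valuation_apply_eq {σ : Γℚ} (hσ : σ ∈ A.decompositionSubgroup ℚ) (x : Qbar) :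
    A.valuation (σ x) = A.valuation x := by
  obtain ⟨n, hn, hx⟩ := exists_iterate_eq_self σ x
  obtain ⟨m, rfl⟩ := Nat.exists_eq_succ_of_ne_zero hn.ne'
  rcases le_total (A.valuation (σ x)) (A.valuation x) with h | h
  · refine le_antisymm h ?_
    have hk : ∀ k, A.valuation (σ^[k + 1] x) ≤ A.valuation (σ x) := by
      intro k
      induction k with
      | zero => simp
      | succ k ih =>
        rw [Function.iterate_succ_apply']
        exact ((valuation_apply_le_iff hσ).mpr (ih.trans h))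
    simpa [hx] using hk m
  · refine le_antisymm ?_ h
    have hk : ∀ k, A.valuation (σ x) ≤ A.valuation (σ^[k + 1] x) := by
      intro k
      induction k with
      | zero => simp
      | succ k ih =>
        rw [Function.iterate_succ_apply' (f := (σ : Qbar → Qbar))]
        exact ((valuation_apply_le_iff hσ).mpr (h.trans ih))
    simpa [hx] using hk m

section Prime

variable {p : ℕ} (hp : p.Prime) (hA : A.LiesOverPrime p)

include hA in
lemma valuation_prime_lt_one : A.valuation (p : Qbar) < 1 :=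
  (A.mem_nonunits_iff).mp hA

include hp in
lemma valuation_prime_ne_zero : A.valuation (p : Qbar) ≠ 0 := by
  rw [ne_eq, map_eq_zero]
  exact_mod_cast hp.ne_zero

include hp hA in
lemma valuation_intCast_eq_one {a : ℤ} (ha : ¬ (p : ℤ) ∣ a) : A.valuation (a : Qbar) = 1 := by
  refine le_antisymm ((A.valuation_le_one_iff _).mpr (intCast_mem A a)) ?_
  by_contra! h
  obtain ⟨u, v, huv⟩ := (Nat.prime_iff_prime_int.mp hp).coprime_iff_not_dvd.mpr ha
  have h1 : A.valuation ((u : Qbar) * p + v * a) < 1 := by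
    refine A.valuation.map_add_lt ?_ ?_
    · rw [map_mul]
      exact mul_lt_one_of_nonneg_of_lt_one_right
        ((A.valuation_le_one_iff _).mpr (intCast_mem A u)) zero_le (valuation_prime_lt_one hA)
    · rw [map_mul]
      exact mul_lt_one_of_nonneg_of_lt_one_right
        ((A.valuation_le_one_iff _).mpr (intCast_mem A v)) zero_le h
  have : ((u : Qbar) * p + v * a) = 1 := by exact_mod_cast congrArg (fun z : ℤ => (z : Qbar)) huv
  rw [this, map_one] at h1
  exact lt_irrefl _ h1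

include hp hA in
lemma dvd_of_valuation_intCast_lt_one {a : ℤ} (ha : A.valuation (a : Qbar) < 1) :
    (p : ℤ) ∣ a := by
  by_contra h
  exact ha.ne (valuation_intCast_eq_one hp hA h)

include hp hA in
lemma valuation_natCast_eq_one {a : ℕ} (ha : ¬ p ∣ a) : A.valuation (a : Qbar) = 1 := by
  simpa using valuation_intCast_eq_one hp hA (a := (a : ℤ)) (by exact_mod_cast ha)

include hp hA in
lemma valuation_zpow_le_zpow_iff {i j : ℤ} :
    A.valuation (p : Qbar) ^ i ≤ A.valuation (p : Qbar) ^ j ↔ j ≤ i := by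
  have h0 : 0 < A.valuation (p : Qbar) := zero_lt_iff.mpr (valuation_prime_ne_zero hp)
  exact zpow_le_zpow_iff_right_of_lt_one₀ h0 (valuation_prime_lt_one hA)

include hp hA in
lemma valuation_zpow_injective :
    Function.Injective fun i : ℤ => A.valuation (p : Qbar) ^ i := fun i j h =>
  le_antisymm ((valuation_zpow_le_zpow_iff hp hA).mp h.ge)
    ((valuation_zpow_le_zpow_iff hp hA).mp h.le)

/-! ### `ζ - 1` -/

variable {ζ : Qbar} (hζ : IsPrimitiveRoot ζ p)

include hp hA hζ in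
lemma valuation_sub_one_lt_one : A.valuation (ζ - 1) < 1 := by
  have hmem : ζ - 1 ∈ A := sub_mem (mem_A_of_isIntegral A (hζ.isIntegral hp.pos)) (one_mem A)
  by_contra! h
  have h1 : A.valuation (ζ - 1) = 1 := le_antisymm ((A.valuation_le_one_iff _).mpr hmem) h
  obtain ⟨u, hu⟩ : ∃ u ∈ A, (ζ - 1) * u = 1 := ⟨(ζ - 1)⁻¹, by
    rw [← A.valuation_le_one_iff, map_inv₀, h1, inv_one], mul_inv_cancel₀ (fun e => by
      rw [e, map_zero] at h1; exact zero_ne_one h1)⟩
  obtain ⟨hu, hmul⟩ := hu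
  have hp1 : (Polynomial.cyclotomic p Qbar).eval 1 = (p : Qbar) := by
    haveI := Fact.mk hp
    exact Polynomial.eval_one_cyclotomic_prime
  have : A.valuation (p : Qbar) = 1 := by
    rw [← hp1, Polynomial.cyclotomic_eq_prod_X_sub_primitiveRoots hζ, Polynomial.eval_prod,
      map_prod]
    refine Finset.prod_eq_one fun μ hμ => ?_
    rw [mem_primitiveRoots hp.pos] at hμ
    haveI : NeZero p := ⟨hp.ne_zero⟩
    simp only [Polynomial.eval_sub, Polynomial.eval_X, Polynomial.eval_C]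
    obtain ⟨i, -, hi⟩ := hμ.eq_pow_of_pow_eq_one hζ.pow_eq_one
    have hdvd : ζ - 1 = (1 - μ) * (-∑ k ∈ Finset.range i, μ ^ k) := by
      rw [mul_neg, mul_neg_geom_sum, hi]; ring
    have hμA : μ ∈ A := mem_A_of_isIntegral A (hμ.isIntegral hp.pos)
    refine le_antisymm ((A.valuation_le_one_iff _).mpr (sub_mem (one_mem A) hμA)) ?_
    calc (1 : A.ValueGroup) = A.valuation (ζ - 1) := h1.symm
      _ ≤ A.valuation (1 - μ) := by
        rw [hdvd, map_mul]
        exact mul_le_of_le_one_right' ((A.valuation_le_one_iff _).mpr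
          (neg_mem (sum_mem fun k _ => pow_mem hμA k)))
  exact (valuation_prime_lt_one hA).ne this

include hp hA hζ in
lemma valuation_pow_sub_one_sub_mul_lt (i : ℕ) :
    A.valuation (ζ ^ i - 1 - i * (ζ - 1)) < A.valuation (ζ - 1) := by
  have hπ := valuation_sub_one_lt_one hp hA hζ
  have hπ0 : A.valuation (ζ - 1) ≠ 0 := by
    rw [ne_eq, map_eq_zero, sub_eq_zero]
    exact hζ.ne_one hp.one_lt
  have hζA : ζ ∈ A := mem_A_of_isIntegral A (hζ.isIntegral hp.pos)
  have : ζ ^ i - 1 - i * (ζ - 1) = (ζ - 1) * ∑ k ∈ Finset.range i, (ζ ^ k - 1) := by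
    rw [Finset.sum_sub_distrib, mul_sub (ζ - 1), mul_geom_sum]; simp; ring
  rw [this, map_mul]
  calc A.valuation (ζ - 1) * A.valuation (∑ k ∈ Finset.range i, (ζ ^ k - 1))
      < A.valuation (ζ - 1) * 1 := by
        refine mul_lt_mul_of_pos_left (A.valuation.map_sum_lt one_ne_zero fun k _ => ?_)
          (zero_lt_iff.mpr hπ0)
        have : ζ ^ k - 1 = (∑ j ∈ Finset.range k, ζ ^ j) * (ζ - 1) := (geom_sum_mul ζ k).symm
        rw [this, map_mul]
        exact (mul_le_of_le_one_left' ((A.valuation_le_one_iff _).mpr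
          (sum_mem fun j _ => pow_mem hζA j))).trans_lt hπ
    _ = _ := mul_one _

include hp hA hζ in
lemma valuation_pow_sub_one_le (i : ℕ) :
    A.valuation (ζ ^ i - 1) ≤ A.valuation (ζ - 1) := by
  rw [← geom_sum_mul ζ i, map_mul]
  exact mul_le_of_le_one_left' ((A.valuation_le_one_iff _).mpr
    (sum_mem fun j _ => pow_mem (mem_A_of_isIntegral A (hζ.isIntegral hp.pos)) j))

include hp hA hζ in
lemma valuation_sub_one_pow : A.valuation (ζ - 1) ^ (p - 1) = A.valuation (p : Qbar) := by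
  have hp1 : (Polynomial.cyclotomic p Qbar).eval 1 = (p : Qbar) := by
    haveI := Fact.mk hp
    exact Polynomial.eval_one_cyclotomic_prime
  rw [← hp1, Polynomial.cyclotomic_eq_prod_X_sub_primitiveRoots hζ, Polynomial.eval_prod,
    map_prod, Finset.prod_eq_pow_card (b := A.valuation (ζ - 1))]
  · rw [hζ.card_primitiveRoots, Nat.totient_prime hp]
  intro μ hμ
  rw [mem_primitiveRoots hp.pos] at hμ
  simp only [Polynomial.eval_sub, Polynomial.eval_X, Polynomial.eval_C]
  haveI : NeZero p := ⟨hp.ne_zero⟩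
  rw [← neg_sub, Valuation.map_neg]
  obtain ⟨i, -, hi⟩ := hζ.eq_pow_of_pow_eq_one hμ.pow_eq_one
  obtain ⟨j, -, hj⟩ := hμ.eq_pow_of_pow_eq_one hζ.pow_eq_one
  refine le_antisymm ?_ ?_
  · rw [← hi]; exact valuation_pow_sub_one_le hp hA hζ i
  · rw [← hj]; exact valuation_pow_sub_one_le hp hA hμ j

end Prime

end FermatLib.Galois.Flat
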