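import Fermat.Agent.Galois.Flat.Kummer
import Fermat.Agent.Galois.FlatModelRat

/-!
# Finite flat group schemes over `ℤ_(p)`, seen at a place over `p`

The main results for users: for a finite Galois module with a finite flat model at `p` and a place
`A` over `p`, the connected part exists and is characterised by Galois theoretic properties
(`IsConnectedPart`), and extensions are peu ramifiées.
-/

set_option autoImplicit false

noncomputable section

open WithConv

namespace FermatLib.Galois.Flat

local notation "Qbar" => AlgebraicClosure ℚ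
local notation "Γℚ" => (AlgebraicClosure ℚ ≃ₐ[ℚ] AlgebraicClosure ℚ)

variable {A : ValuationSubring Qbar} {p : ℕ}

lemma algebraMap_ratLocalizedAt_mem (hp : p.Prime) (hA : A.LiesOverPrime p)
    (r : GaloisRep.ratLocalizedAt p) : algebraMap (GaloisRep.ratLocalizedAt p) Qbar r ∈ A := by
  rw [IsScalarTower.algebraMap_apply (GaloisRep.ratLocalizedAt p) ℚ Qbar, eq_ratCast,
    show algebraMap (GaloisRep.ratLocalizedAt p) ℚ r = (r : ℚ) from rfl,
    Rat.cast_def, ← A.valuation_le_one_iff, map_div₀,
    valuation_natCast_eq_one hp hA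
      (hp.coprime_iff_not_dvd.mp (Nat.Coprime.symm (show (r : ℚ).den.Coprime p from r.2))), div_one,
    A.valuation_le_one_iff]
  exact intCast_mem A _

variable {M : Type*} [AddCommGroup M] {act : Γℚ → M →+ M}

/-- A finite flat group scheme over `ℤ_(p)` gives an integral model at every place over `p`, with
connected part stable under the decomposition group. -/
theorem exists_integralModel (hp : p.Prime) (hA : A.LiesOverPrime p)
    (h : FlatModel.HasModelAt p M fun σ x => act σ x) :
    ∃ G : IntegralModel A act,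
      ∀ σ ∈ A.decompositionSubgroup ℚ, ∀ f ∈ G.conn, act σ f ∈ G.conn := by
  classical
  obtain ⟨H, _, _, hfin, -, -, e, hadd, hgal⟩ := h
  let ev : H →ₗ[GaloisRep.ratLocalizedAt p] (M → Qbar) :=
    { toFun := fun a x => (e.symm x).ofConv a
      map_add' := fun a b => by funext x; simp
      map_smul' := fun c a => by funext x; simp }
  let F : Submodule (inertiaFixedRing A) (M → Qbar) :=
    Submodule.span (inertiaFixedRing A) (Set.range ev)
  have hsymm_add : ∀ x y, e.symm (x + y) = e.symm x * e.symm y := fun x y =>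
    e.injective (by rw [hadd, e.apply_symm_apply, e.apply_symm_apply, e.apply_symm_apply])
  have hcomul : ∀ (a : H) x y, ev a (x + y) = ∑ i ∈ (Coalgebra.Repr.arbitrary (GaloisRep.ratLocalizedAt p) a).index,
      ev ((Coalgebra.Repr.arbitrary (GaloisRep.ratLocalizedAt p) a).left i) x *
        ev ((Coalgebra.Repr.arbitrary (GaloisRep.ratLocalizedAt p) a).right i) y := by
    intro a x y
    change (e.symm (x + y)).ofConv a = _
    rw [hsymm_add]
    change ((e.symm x * e.symm y) : WithConv (H →ₐ[GaloisRep.ratLocalizedAt p] Qbar)) a = _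
    rw [AlgHom.convMul_apply, ← (Coalgebra.Repr.arbitrary (GaloisRep.ratLocalizedAt p) a).eq]
    simp [map_sum, ev]
  have hequiv : ∀ (σ : Γℚ) (a : H) x, ev a (act σ x) = σ (ev a x) := by
    intro σ a x
    let g : WithConv (H →ₐ[GaloisRep.ratLocalizedAt p] Qbar) :=
      toConv (((σ : Qbar →ₐ[ℚ] Qbar).restrictScalars (GaloisRep.ratLocalizedAt p)).comp
        (e.symm x).ofConv)
    have hg : e g = act σ x := by
      rw [hgal σ (e.symm x) g fun _ => rfl, e.apply_symm_apply]
    change (e.symm (act σ x)).ofConv a = _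
    rw [← hg, e.symm_apply_apply]
    rfl
  have hmem : ∀ a x, ev a x ∈ A := by
    intro a x
    have hint : IsIntegral (GaloisRep.ratLocalizedAt p) (ev a x) :=
      (Algebra.IsIntegral.isIntegral a).map (e.symm x).ofConv
    obtain ⟨P, hP, hPx⟩ := hint
    let ψ : GaloisRep.ratLocalizedAt p →+* A :=
      (algebraMap (GaloisRep.ratLocalizedAt p) Qbar).codRestrict A.toSubring
        (algebraMap_ratLocalizedAt_mem hp hA)
    have hint' : IsIntegral A (ev a x) := ⟨P.map ψ, hP.map ψ, by
      rw [Polynomial.eval₂_map]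
      exact hPx⟩
    obtain ⟨y, hy⟩ := IsIntegrallyClosed.isIntegral_iff.mp hint'
    exact hy ▸ y.2
  have hgen : ∀ a, ev a ∈ F := fun a => Submodule.subset_span ⟨a, rfl⟩
  refine ⟨{
      fns := F
      fg := ?_
      fns_one_mem := ?_
      fns_mul_mem := ?_
      comul := ?_
      apply_mem := ?_
      equivariant := ?_
      separates := ?_ }, ?_⟩
  · obtain ⟨s, hs⟩ := (Module.finite_def (R := GaloisRep.ratLocalizedAt p) (M := H)).mp hfin
    refine ⟨s.image ev, le_antisymm (Submodule.span_mono (by simp)) (Submodule.span_le.mpr ?_)⟩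
    rintro _ ⟨a, rfl⟩
    have ha : a ∈ Submodule.span (GaloisRep.ratLocalizedAt p) (s : Set H) := hs ▸ Submodule.mem_top
    induction ha using Submodule.span_induction with
    | mem b hb =>
      exact Submodule.subset_span (Finset.mem_coe.mpr (Finset.mem_image_of_mem ev hb))
    | zero => simp
    | add b c _ _ hb hc => rw [map_add]; exact Submodule.add_mem _ hb hc
    | smul r b _ hb =>
      have hr : algebraMap (GaloisRep.ratLocalizedAt p) Qbar r ∈ inertiaFixedRing A :=
        ⟨algebraMap_ratLocalizedAt_mem hp hA r, fun σ _ => by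
          rw [IsScalarTower.algebraMap_apply (GaloisRep.ratLocalizedAt p) ℚ Qbar, AlgEquiv.commutes]⟩
      have : ev (r • b) = (⟨_, hr⟩ : inertiaFixedRing A) • ev b := by
        funext x
        rw [map_smul]
        simp only [Pi.smul_apply, Algebra.smul_def]
        rfl
      rw [this]
      exact Submodule.smul_mem _ _ hb
  · convert hgen 1 using 1
    funext x
    simp [ev]
  · intro a b ha hb
    induction ha using Submodule.span_induction with
    | mem u hu =>
      obtain ⟨a, rfl⟩ := hu
      induction hb using Submodule.span_induction with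
      | mem v hv =>
        obtain ⟨b, rfl⟩ := hv
        convert hgen (a * b) using 1
        funext x
        simp [ev]
      | zero => simp
      | add v w _ _ hv hw => rw [mul_add]; exact Submodule.add_mem _ hv hw
      | smul c v _ hv => rw [mul_smul_comm]; exact Submodule.smul_mem _ _ hv
    | zero => simp
    | add u v _ _ hu hv => rw [add_mul]; exact Submodule.add_mem _ hu hv
    | smul c u _ hu => rw [smul_mul_assoc]; exact Submodule.smul_mem _ _ hu
  · intro u hu
    suffices ∃ (ι : Type) (s : Finset ι) (a b : ι → M → Qbar), (∀ i ∈ s, a i ∈ F) ∧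
        (∀ i ∈ s, b i ∈ F) ∧ ∀ x y, u (x + y) = ∑ i ∈ s, a i x * b i y by
      obtain ⟨ι, s, a, b, ha, hb, hab⟩ := this
      refine ⟨s.card, fun i => a (s.equivFin.symm i), fun i => b (s.equivFin.symm i),
        fun i => ha _ (s.equivFin.symm i).2, fun i => hb _ (s.equivFin.symm i).2, fun x y => ?_⟩
      rw [hab, ← Finset.sum_coe_sort s]
      exact (Equiv.sum_comp s.equivFin.symm fun i : s => a i x * b i y).symm
    induction hu using Submodule.span_induction with
    | mem v hv =>
      obtain ⟨a, rfl⟩ := hv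
      exact ⟨H × H, (Coalgebra.Repr.arbitrary (GaloisRep.ratLocalizedAt p) a).index,
        fun i => ev ((Coalgebra.Repr.arbitrary (GaloisRep.ratLocalizedAt p) a).left i),
        fun i => ev ((Coalgebra.Repr.arbitrary (GaloisRep.ratLocalizedAt p) a).right i),
        fun i _ => hgen _, fun i _ => hgen _, fun x y => hcomul a x y⟩
    | zero => exact ⟨PEmpty, ∅, fun i => i.elim, fun i => i.elim, by simp, by simp, by simp⟩
    | add v w _ _ hv hw =>
      obtain ⟨ι, s, a, b, ha, hb, hab⟩ := hv
      obtain ⟨ι', s', a', b', ha', hb', hab'⟩ := hw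
      refine ⟨ι ⊕ ι', s.disjSum s', Sum.elim a a', Sum.elim b b', ?_, ?_, fun x y => ?_⟩
      · intro i hi
        rcases Finset.mem_disjSum.mp hi with ⟨j, hj, rfl⟩ | ⟨j, hj, rfl⟩
        exacts [ha j hj, ha' j hj]
      · intro i hi
        rcases Finset.mem_disjSum.mp hi with ⟨j, hj, rfl⟩ | ⟨j, hj, rfl⟩
        exacts [hb j hj, hb' j hj]
      · rw [Finset.sum_disjSum, Pi.add_apply, hab, hab']
        simp
    | smul c v _ hv =>
      obtain ⟨ι, s, a, b, ha, hb, hab⟩ := hv
      exact ⟨ι, s, fun i => c • a i, b, fun i hi => Submodule.smul_mem _ _ (ha i hi), hb,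
        fun x y => by simp [hab, Finset.smul_sum, Subring.smul_def, mul_assoc]⟩
  · intro u hu x
    induction hu using Submodule.span_induction with
    | mem v hv => obtain ⟨a, rfl⟩ := hv; exact hmem a x
    | zero => exact zero_mem A
    | add v w _ _ hv hw => exact add_mem hv hw
    | smul c v _ hv => rw [Pi.smul_apply, Subring.smul_def]; exact mul_mem c.2.1 hv
  · intro σ hσ u hu x
    induction hu using Submodule.span_induction with
    | mem v hv => obtain ⟨a, rfl⟩ := hv; exact hequiv σ a x
    | zero => simp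
    | add v w _ _ hv hw => simp [hv, hw]
    | smul c v _ hv => simp [hv, Subring.smul_def, c.2.2 σ hσ]
  · intro x hx
    by_contra hall
    push Not at hall
    refine hx (e.symm.injective (WithConv.ofConv_injective (AlgHom.ext fun a => ?_)))
    exact hall (ev a) (hgen a)
  · intro σ hσ f hf u hu
    induction hu using Submodule.span_induction with
    | mem v hv =>
      obtain ⟨a, rfl⟩ := hv
      have h0 : ev a (0 : M) = σ (ev a 0) := by simpa using hequiv σ a 0
      rw [hequiv, h0, ← map_sub, valuation_apply_eq hσ]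
      exact hf _ (hgen a)
    | zero => simp
    | add v w _ _ hv hw =>
      rw [Pi.add_apply, Pi.add_apply, add_sub_add_comm]
      exact A.valuation.map_add_lt hv hw
    | smul c v _ hv =>
      rw [Pi.smul_apply, Pi.smul_apply, ← smul_sub, Subring.smul_def, smul_eq_mul, map_mul]
      exact mul_lt_one_of_nonneg_of_lt_one_right ((A.valuation_le_one_iff _).mpr c.2.1) zero_le hv

/-- The properties characterising the connected part of a finite flat Galois module at a place `A`
over `p > 2`. -/
structure IsConnectedPart (A : ValuationSubring Qbar) (p : ℕ) (act : Γℚ → M →+ M)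
    (C : AddSubgroup M) : Prop where
  decomposition_stable : ∀ σ ∈ A.decompositionSubgroup ℚ, ∀ x ∈ C, act σ x ∈ C
  inertia_sub_mem : ∀ σ ∈ A.inertiaSubgroupIn ℚ, ∀ x, act σ x - x ∈ C
  mem_of_fixed : ∀ N : AddSubgroup M, IsInertiaStable A act N → ∀ x ∈ C, ∀ k : ℕ,
    p ^ k • x ∈ N → (∀ σ ∈ A.inertiaSubgroupIn ℚ, act σ x - x ∈ N) → x ∈ N
  cyclotomic : ∀ N : AddSubgroup M, IsInertiaStable A act N → ∀ x ∈ C, x ∉ N → p • x ∈ N →
    (∀ τ ∈ A.inertiaSubgroupIn ℚ, ∃ b : ℕ, act τ x - b • x ∈ N) →
    ∀ σ ∈ A.inertiaSubgroupIn ℚ, ∀ a : ℕ, act σ x - a • x ∈ N →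
      ∀ μ : Qbar, μ ^ p = 1 → σ μ = μ ^ a

theorem finite_of_hasModelAt (h : FlatModel.HasModelAt p M fun σ x => act σ x) : Finite M :=
  FlatModel.HasModel.finite_carrier h

/-- **The connected-étale sequence** at a place over `p > 2`. -/
theorem exists_isConnectedPart (hp : p.Prime) (hp2 : p ≠ 2) (hA : A.LiesOverPrime p)
    (h : FlatModel.HasModelAt p M fun σ x => act σ x) :
    ∃ C : AddSubgroup M, IsConnectedPart A p act C := by
  have := finite_of_hasModelAt h
  obtain ⟨G, hG⟩ := exists_integralModel hp hA h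
  exact ⟨G.conn, hG, fun σ hσ x => G.act_sub_mem_conn hσ x,
    fun N hN x hx k hk hfix => G.mem_of_fixed hp hp2 hA hN hx hk hfix,
    fun N hN x hx hxN hpx hline σ hσ a ha μ hμ =>
      G.apply_eq_pow_of_line hp hA hN hx hxN hpx hline hσ ha hμ⟩

/-- **Peu ramifié**: a point killed by `p` rational over `K(ζ_p, β)`, with `β ^ p ∈ K` for the
inertia field `K`, is rational over `K(ζ_p)` unless the valuation of `β` is integral. -/
theorem fixed_or_valuation_eq_zpow (hp : p.Prime) (hA : A.LiesOverPrime p)
    (h : FlatModel.HasModelAt p M fun σ x => act σ x) {N : AddSubgroup M}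
    (hN : IsInertiaStable A act N) {x : M} {ζ β : Qbar} (hζ : IsPrimitiveRoot ζ p) (hβ0 : β ≠ 0)
    (hβ : ∀ σ ∈ A.inertiaSubgroupIn ℚ, σ (β ^ p) = β ^ p)
    (hx : ∀ σ ∈ A.inertiaSubgroupIn ℚ, σ ζ = ζ → σ β = β → act σ x - x ∈ N)
    (hpx : ∀ σ ∈ A.inertiaSubgroupIn ℚ, σ ζ = ζ → p • (act σ x - x) ∈ N) :
    (∀ σ ∈ A.inertiaSubgroupIn ℚ, σ ζ = ζ → act σ x - x ∈ N) ∨
      ∃ k : ℤ, A.valuation β = A.valuation (p : Qbar) ^ k := by
  have := finite_of_hasModelAt h
  obtain ⟨G, -⟩ := exists_integralModel hp hA h
  exact G.fixed_or_valuation_eq_zpow hp hA hN hζ hβ0 hβ hx hpx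

end FermatLib.Galois.Flat
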