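import Fermat.Agent.Galois.Flat.Invariants
import Mathlib.Algebra.Group.ForwardDiff
import Mathlib.Data.Nat.Choose.Dvd
import Mathlib.RingTheory.RootsOfUnity.AlgebraicallyClosed

/-!
# The connected part of an integral model over an unramified base, `p > 2`

The points reducing to `0` form the connected part. On it no subquotient has a nonzero vector fixed
by inertia, and inertia acts through the cyclotomic character on subquotient lines.
-/

set_option autoImplicit false

noncomputable section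

namespace FermatLib.Galois.Flat

local notation "Qbar" => AlgebraicClosure ℚ
local notation "Γℚ" => (AlgebraicClosure ℚ ≃ₐ[ℚ] AlgebraicClosure ℚ)

variable {A : ValuationSubring Qbar} {p : ℕ} {M : Type*} [AddCommGroup M] {act : Γℚ → M →+ M}

namespace IntegralModel

variable (G : IntegralModel A act)

include G in
lemma valuation_apply_le_one {h : M → Qbar} (hh : h ∈ G.fns) (x : M) : A.valuation (h x) ≤ 1 :=
  (A.valuation_le_one_iff _).mpr (G.apply_mem h hh x)

include G in
lemma valuation_add_sub_lt_one {d : M} (hd : ∀ h ∈ G.fns, A.valuation (h d - h 0) < 1)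
    {h : M → Qbar} (hh : h ∈ G.fns) (x : M) : A.valuation (h (x + d) - h x) < 1 := by
  obtain ⟨n, a, b, ha, hb, hab⟩ := G.comul h hh
  have : h (x + d) - h x = ∑ i, a i x * (b i d - b i 0) := by
    conv_lhs => rw [hab x d, ← add_zero x, hab x 0]
    simp only [add_zero, mul_sub, Finset.sum_sub_distrib]
  rw [this]
  refine A.valuation.map_sum_lt one_ne_zero fun i _ => ?_
  rw [map_mul]
  exact mul_lt_one_of_nonneg_of_lt_one_right (G.valuation_apply_le_one (ha i) x) zero_le
    (hd _ (hb i))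

/-- The connected part: the points whose reduction is the identity. -/
def conn : AddSubgroup M where
  carrier := {f | ∀ h ∈ G.fns, A.valuation (h f - h 0) < 1}
  zero_mem' h _ := by simp
  add_mem' {f g} hf hg h hh := by
    have e : h (f + g) - h 0 = (h (f + g) - h f) + (h f - h 0) := by ring
    rw [e]
    exact A.valuation.map_add_lt (G.valuation_add_sub_lt_one hg hh f) (hf h hh)
  neg_mem' {f} hf h hh := by
    have := G.valuation_add_sub_lt_one hf hh (-f)
    rw [neg_add_cancel] at this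
    rwa [Valuation.map_sub_swap]

lemma sub_mem_conn_of_forall {x y : M} (hxy : ∀ h ∈ G.fns, A.valuation (h x - h y) < 1) :
    x - y ∈ G.conn := by
  intro h hh
  obtain ⟨n, a, b, ha, hb, hab⟩ := G.comul h hh
  have : h (x - y) - h 0 = ∑ i, (a i x - a i y) * b i (-y) := by
    conv_lhs => rw [sub_eq_add_neg x y, hab x (-y), ← add_neg_cancel y, hab y (-y)]
    simp only [sub_mul, Finset.sum_sub_distrib]
  rw [this]
  refine A.valuation.map_sum_lt one_ne_zero fun i _ => ?_
  rw [map_mul]
  exact mul_lt_one_of_nonneg_of_lt_one_left zero_le (hxy _ (ha i))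
    (G.valuation_apply_le_one (hb i) _)

lemma valuation_sub_lt_one_of_sub_mem {x y : M} (hxy : x - y ∈ G.conn) {h : M → Qbar}
    (hh : h ∈ G.fns) : A.valuation (h x - h y) < 1 := by
  have := G.valuation_add_sub_lt_one hxy hh y
  rwa [add_sub_cancel] at this

/-- Inertia acts trivially modulo the connected part. -/
lemma act_sub_mem_conn {σ : Γℚ} (hσ : σ ∈ A.inertiaSubgroupIn ℚ) (x : M) :
    act σ x - x ∈ G.conn :=
  G.sub_mem_conn_of_forall fun h hh => by
    rw [G.equivariant σ hσ h hh]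
    exact valuation_apply_sub_lt_one hσ (G.apply_mem h hh x)

/-- The difference attaining the largest valuation. -/
lemma exists_dominant (hp : p.Prime) (hA : A.LiesOverPrime p) [Finite M] {N : AddSubgroup M}
    (hN : IsInertiaStable A act N) {f : M} (hf : f ∉ N) :
    ∃ h₀ ∈ G.invariants N, A.valuation (h₀ f - h₀ 0) ≠ 0 ∧
      ∀ h ∈ G.invariants N, A.valuation (h f - h 0) ≤ A.valuation (h₀ f - h₀ 0) := by
  obtain ⟨s, hs⟩ := G.invariants_fg hp hA N
  obtain ⟨h₁, hh₁, hne⟩ := G.separates_invariants hp hA hN hf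
  have hbound : ∀ (γ : A.ValueGroup), (∀ g ∈ s, A.valuation (g f - g 0) ≤ γ) →
      ∀ h ∈ G.invariants N, A.valuation (h f - h 0) ≤ γ := by
    intro γ hγ h hh
    rw [← hs] at hh
    induction hh using Submodule.span_induction with
    | mem g hg => exact hγ g hg
    | zero => simp
    | add u v _ _ hu hv =>
      rw [Pi.add_apply, Pi.add_apply, add_sub_add_comm]
      exact A.valuation.map_add_le hu hv
    | smul c u _ hu =>
      rw [Pi.smul_apply, Pi.smul_apply, ← smul_sub, Subring.smul_def, smul_eq_mul, map_mul]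
      exact (mul_le_of_le_one_left' ((A.valuation_le_one_iff _).mpr c.2.1)).trans hu
  have hsne : s.Nonempty := by
    rcases s.eq_empty_or_nonempty with rfl | h
    · rw [Finset.coe_empty, Submodule.span_empty] at hs
      rw [← hs, Submodule.mem_bot] at hh₁
      simp [hh₁] at hne
    · exact h
  obtain ⟨g, hg, hmax⟩ := s.exists_max_image (fun g => A.valuation (g f - g 0)) hsne
  have hall := hbound _ hmax
  refine ⟨g, hs ▸ Submodule.subset_span hg, fun h0 => hne ?_, hall⟩
  have := (hall h₁ hh₁).trans_eq h0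
  rwa [nonpos_iff_eq_zero, map_eq_zero, sub_eq_zero] at this

/-- Iterated differences along `f` are divisible by powers of the dominant difference. -/
lemma valuation_fwdDiff_iter_le (hp : p.Prime) (hA : A.LiesOverPrime p) [Finite M]
    {N : AddSubgroup M} (hN : IsInertiaStable A act N) {f : M} {γ : A.ValueGroup}
    (hγ : ∀ h ∈ G.invariants N, A.valuation (h f - h 0) ≤ γ) (k : ℕ) :
    ∀ h ∈ G.invariants N, ∀ x, A.valuation ((fwdDiff f)^[k] h x) ≤ γ ^ k := by
  induction k with
  | zero => intro h hh x; simpa using G.valuation_apply_le_one (G.mem_invariants.mp hh).1 x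
  | succ k ih =>
    intro h hh x
    obtain ⟨n, a, b, ha, hb, hab⟩ := G.comul_invariants hp hA hN hh
    have : fwdDiff f h = ∑ i, (b i f - b i 0) • a i := by
      funext y
      rw [fwdDiff, Finset.sum_apply]
      conv_lhs => rw [hab y f, ← add_zero y, hab y 0]
      simp only [add_zero, Pi.smul_apply, smul_eq_mul, sub_mul, Finset.sum_sub_distrib,
        mul_comm (b _ _)]
    rw [Function.iterate_succ_apply, this, fwdDiff_iter_finsetSum, Finset.sum_apply]
    refine A.valuation.map_sum_le fun i _ => ?_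
    rw [fwdDiff_iter_const_smul, Pi.smul_apply, smul_eq_mul, map_mul, pow_succ, mul_comm]
    exact mul_le_mul' (ih _ (ha i) x) (hγ _ (hb i))

/-- Multiplication by `n` is linear to first order. -/
lemma valuation_nsmul_sub_le (hp : p.Prime) (hA : A.LiesOverPrime p) [Finite M]
    {N : AddSubgroup M} (hN : IsInertiaStable A act N) {f : M} {γ : A.ValueGroup}
    (hγ1 : γ ≤ 1) (hγ : ∀ h ∈ G.invariants N, A.valuation (h f - h 0) ≤ γ)
    {h : M → Qbar} (hh : h ∈ G.invariants N) (n : ℕ) :
    A.valuation (h (n • f) - h 0 - n * (h f - h 0)) ≤ γ ^ 2 := by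
  rcases n with _ | m
  · simp
  have e := shift_eq_sum_fwdDiff_iter f h (m + 1) 0
  rw [zero_add, Finset.sum_range_succ', Finset.sum_range_succ'] at e
  simp only [Function.iterate_zero_apply, Nat.choose_zero_right, zero_add, Nat.choose_one_right,
    Function.iterate_one, nsmul_eq_mul, fwdDiff, Nat.cast_one, one_mul] at e
  have e' : h ((m + 1) • f) - h 0 - ((m + 1 : ℕ) : Qbar) * (h f - h 0) =
      ∑ k ∈ Finset.range m, ((m + 1).choose (k + 2) : Qbar) * (fwdDiff f)^[k + 2] h 0 := by
    rw [e]; simp only [add_assoc, Nat.reduceAdd]; ring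
  rw [e']
  refine A.valuation.map_sum_le fun k _ => ?_
  rw [map_mul]
  calc _ ≤ 1 * γ ^ (k + 2) := mul_le_mul' ((A.valuation_le_one_iff _).mpr (natCast_mem A _))
        (G.valuation_fwdDiff_iter_le hp hA hN hγ _ h hh 0)
    _ ≤ γ ^ 2 := by rw [one_mul]; exact pow_le_pow_right_of_le_one' hγ1 (by omega)

/-- For a connected point killed by `p`, the dominant difference has `(p-1)`-th power dividing
`p`. -/
lemma valuation_prime_le_pow (hp : p.Prime) (hA : A.LiesOverPrime p) [Finite M]
    {N : AddSubgroup M} (hN : IsInertiaStable A act N) {f : M} (hpf : p • f ∈ N) {h₀ : M → Qbar}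
    (hh₀ : h₀ ∈ G.invariants N) (hc0 : A.valuation (h₀ f - h₀ 0) ≠ 0)
    (hc1 : A.valuation (h₀ f - h₀ 0) < 1)
    (hγ : ∀ h ∈ G.invariants N, A.valuation (h f - h 0) ≤ A.valuation (h₀ f - h₀ 0)) :
    A.valuation (p : Qbar) ≤ A.valuation (h₀ f - h₀ 0) ^ (p - 1) := by
  set γ := A.valuation (h₀ f - h₀ 0) with hγdef
  have e := shift_eq_sum_fwdDiff_iter f h₀ p 0
  rw [zero_add, Finset.sum_range_succ', G.invariants_eq_of_sub_mem hh₀ (y := 0) (by simpa using hpf),
    Function.iterate_zero_apply, Nat.choose_zero_right, one_smul] at e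
  obtain ⟨m, hm⟩ : ∃ m, p = m + 1 := ⟨p - 1, (Nat.sub_add_cancel hp.one_le).symm⟩
  have e0 : ∑ k ∈ Finset.range p, (p.choose (k + 1)) • (fwdDiff f)^[k + 1] h₀ 0 = 0 := by
    linear_combination -e
  by_contra! hlt
  have hpne := valuation_prime_ne_zero (A := A) hp
  have hone : ∀ k ∈ Finset.range p, k ≠ 0 →
      A.valuation ((p.choose (k + 1)) • (fwdDiff f)^[k + 1] h₀ 0) <
        A.valuation (p : Qbar) * γ := by
    intro k hk hk0
    rw [Finset.mem_range] at hk
    rw [nsmul_eq_mul, map_mul]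
    rcases eq_or_lt_of_le (show k + 1 ≤ p by omega) with hkp | hkp
    · rw [hkp, Nat.choose_self, Nat.cast_one, map_one, one_mul]
      refine (G.valuation_fwdDiff_iter_le hp hA hN hγ p h₀ hh₀ 0).trans_lt ?_
      rw [hm, pow_succ]
      rw [hm, Nat.add_sub_cancel] at hlt
      rw [← hm]
      exact mul_lt_mul_of_pos_right (hm ▸ hlt) (zero_lt_iff.mpr hc0)
    · obtain ⟨t, ht⟩ := hp.dvd_choose_self (k := k + 1) (by omega) hkp
      calc _ ≤ A.valuation (p : Qbar) * γ ^ (k + 1) := by
            refine mul_le_mul' ?_ (G.valuation_fwdDiff_iter_le hp hA hN hγ _ h₀ hh₀ 0)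
            rw [ht, Nat.cast_mul, map_mul]
            exact mul_le_of_le_one_right' ((A.valuation_le_one_iff _).mpr (natCast_mem A t))
        _ < A.valuation (p : Qbar) * γ := by
            refine mul_lt_mul_of_pos_left ?_ (zero_lt_iff.mpr hpne)
            calc γ ^ (k + 1) ≤ γ ^ 2 := pow_le_pow_right_of_le_one' hc1.le (by omega)
              _ < γ := by rw [pow_two]; exact mul_lt_of_lt_one_left (zero_lt_iff.mpr hc0) hc1
  rw [← Finset.sum_sdiff (Finset.singleton_subset_iff.mpr (Finset.mem_range.mpr hp.pos)),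
    Finset.sum_singleton, zero_add,
    Nat.choose_one_right, Function.iterate_one, fwdDiff, zero_add, nsmul_eq_mul] at e0
  have hsum : A.valuation (∑ k ∈ Finset.range p \ {0},
      (p.choose (k + 1)) • (fwdDiff f)^[k + 1] h₀ 0) < A.valuation (p : Qbar) * γ :=
    A.valuation.map_sum_lt (mul_ne_zero hpne hc0) fun k hk => by
      rw [Finset.mem_sdiff, Finset.mem_singleton] at hk
      exact hone k hk.1 hk.2
  rw [eq_neg_of_add_eq_zero_left e0, Valuation.map_neg, map_mul, ← hγdef] at hsum
  exact lt_irrefl _ hsum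

/-- A connected point fixed by inertia modulo `N` and killed by `p` modulo `N` lies in `N`. -/
theorem mem_of_fixed_of_prime_smul_mem (hp : p.Prime) (hp2 : p ≠ 2) (hA : A.LiesOverPrime p)
    [Finite M] {N : AddSubgroup M} (hN : IsInertiaStable A act N) {f : M} (hf : f ∈ G.conn)
    (hpf : p • f ∈ N) (hfix : ∀ σ ∈ A.inertiaSubgroupIn ℚ, act σ f - f ∈ N) : f ∈ N := by
  by_contra hfN
  obtain ⟨h₀, hh₀, hc0, hγ⟩ := G.exists_dominant hp hA hN hfN
  have hc1 := hf h₀ (G.mem_invariants.mp hh₀).1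
  have hle := G.valuation_prime_le_pow hp hA hN hpf hh₀ hc0 hc1 hγ
  obtain ⟨j, hj⟩ := exists_valuation_eq_zpow hp hA
    (x := h₀ f - h₀ 0) (fun h => hc0 (by rw [h, map_zero])) fun σ hσ => by
      rw [map_sub, ← G.equivariant σ hσ _ (G.mem_invariants.mp hh₀).1,
        ← G.equivariant σ hσ _ (G.mem_invariants.mp hh₀).1, map_zero,
        G.invariants_eq_of_sub_mem hh₀ (hfix σ hσ)]
  have hj1 : 1 ≤ j := by
    by_contra! hcon
    apply hc1.not_ge
    rw [hj, ← zpow_zero (A.valuation (p : Qbar)), valuation_zpow_le_zpow_iff hp hA]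
    omega
  rw [hj, ← zpow_natCast, ← zpow_mul] at hle
  nth_rewrite 1 [← zpow_one (A.valuation (p : Qbar))] at hle
  rw [valuation_zpow_le_zpow_iff hp hA] at hle
  have h3 : 3 ≤ p := by have := hp.two_le; omega
  have : (2 : ℤ) ≤ ((p - 1 : ℕ) : ℤ) := by omega
  nlinarith

/-- A connected point fixed by inertia modulo `N` and killed by a power of `p` modulo `N` lies
in `N`. -/
theorem mem_of_fixed (hp : p.Prime) (hp2 : p ≠ 2) (hA : A.LiesOverPrime p) [Finite M]
    {N : AddSubgroup M} (hN : IsInertiaStable A act N) {f : M} (hf : f ∈ G.conn) {k : ℕ}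
    (hpf : p ^ k • f ∈ N) (hfix : ∀ σ ∈ A.inertiaSubgroupIn ℚ, act σ f - f ∈ N) : f ∈ N := by
  induction k generalizing f with
  | zero => simpa using hpf
  | succ k ih =>
    refine G.mem_of_fixed_of_prime_smul_mem hp hp2 hA hN hf ?_ hfix
    refine ih (G.conn.nsmul_mem hf p) (by rwa [← mul_smul, ← pow_succ]) fun σ hσ => ?_
    rw [map_nsmul, ← smul_sub]
    exact N.nsmul_mem (hfix σ hσ) p

/-- On a line of a subquotient of the connected part, inertia acts by the cyclotomic character. -/
theorem apply_eq_pow_of_line (hp : p.Prime) (hA : A.LiesOverPrime p) [Finite M]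
    {N : AddSubgroup M} (hN : IsInertiaStable A act N) {f : M} (hf : f ∈ G.conn) (hfN : f ∉ N)
    (hpf : p • f ∈ N) (hline : ∀ τ ∈ A.inertiaSubgroupIn ℚ, ∃ b : ℕ, act τ f - b • f ∈ N)
    {σ : Γℚ} (hσ : σ ∈ A.inertiaSubgroupIn ℚ) {a : ℕ} (ha : act σ f - a • f ∈ N)
    {μ : Qbar} (hμ : μ ^ p = 1) : σ μ = μ ^ a := by
  classical
  haveI : Fact p.Prime := ⟨hp⟩
  haveI : NeZero p := ⟨hp.ne_zero⟩
  obtain ⟨h₀, hh₀, hc0, hγ⟩ := G.exists_dominant hp hA hN hfN
  have hh₀' := (G.mem_invariants.mp hh₀).1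
  have hc1 := hf h₀ hh₀'
  set γ := A.valuation (h₀ f - h₀ 0) with hγdef
  have hle := G.valuation_prime_le_pow hp hA hN hpf hh₀ hc0 hc1 hγ
  let g : ℕ → Qbar := fun n => h₀ (n • f) - h₀ 0
  have hγ2 : γ ^ 2 < γ := by
    rw [pow_two]; exact mul_lt_of_lt_one_left (zero_lt_iff.mpr hc0) hc1
  have happ : ∀ n : ℕ, A.valuation (g n - n * (h₀ f - h₀ 0)) < γ := fun n =>
    (G.valuation_nsmul_sub_le hp hA hN hc1.le hγ hh₀ n).trans_lt hγ2
  have hgmod : ∀ n : ℕ, g n = g ((n : ZMod p).val) := by
    intro n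
    simp only [g]
    congr 1
    refine G.invariants_eq_of_sub_mem hh₀ ?_
    rw [ZMod.val_natCast]
    have hn : n • f = (n % p) • f + (n / p) • (p • f) := by
      conv_lhs => rw [← Nat.mod_add_div n p, add_smul, mul_comm p, mul_smul]
    rw [hn, add_sub_cancel_left]
    exact N.nsmul_mem hpf _
  have hσg : ∀ τ ∈ A.inertiaSubgroupIn ℚ, ∀ b : ℕ, act τ f - b • f ∈ N →
      ∀ n : ℕ, τ (g n) = g (n * b) := by
    intro τ hτ b hb n
    simp only [g, map_sub]
    rw [← G.equivariant τ hτ _ hh₀', ← G.equivariant τ hτ _ hh₀', map_zero]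
    congr 1
    refine G.invariants_eq_of_sub_mem hh₀ ?_
    rw [map_nsmul, mul_smul, ← smul_sub]
    exact N.nsmul_mem hb n
  let S : Finset (ZMod p) := Finset.univ.erase 0
  have hPfix : ∀ τ ∈ A.inertiaSubgroupIn ℚ, τ (∏ z ∈ S, g z.val) = ∏ z ∈ S, g z.val := by
    intro τ hτ
    obtain ⟨b, hb⟩ := hline τ hτ
    have hb0 : (b : ZMod p) ≠ 0 := by
      rw [ne_eq, ZMod.natCast_eq_zero_iff]
      rintro ⟨t, rfl⟩
      refine hfN (G.mem_of_act_mem hN hτ ?_)
      have hm : (p * t) • f ∈ N := by rw [mul_comm, mul_smul]; exact N.nsmul_mem hpf t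
      simpa using N.add_mem hb hm
    rw [map_prod]
    refine Finset.prod_nbij' (fun z => z * b) (fun z => z * (b : ZMod p)⁻¹) ?_ ?_ ?_ ?_ ?_
    · intro z hz; simpa [S, hb0] using hz
    · intro z hz; simpa [S, hb0] using hz
    · intro z _; simp [hb0]
    · intro z _; simp [hb0]
    · intro z _
      rw [hσg τ hτ b hb, hgmod]
      simp
  have hgz : ∀ z ∈ S, A.valuation (g z.val) = γ := by
    intro z hz
    have hz0 : ¬ p ∣ z.val := by
      rw [← ZMod.natCast_eq_zero_iff, ZMod.natCast_zmod_val]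
      exact (Finset.mem_erase.mp hz).1
    have h1 : A.valuation ((z.val : Qbar) * (h₀ f - h₀ 0)) = γ := by
      rw [map_mul, valuation_natCast_eq_one hp hA hz0, one_mul]
    rw [← h1]
    exact (A.valuation.map_eq_of_sub_lt (by rw [h1]; exact happ _))
  have hPval : A.valuation (∏ z ∈ S, g z.val) = γ ^ (p - 1) := by
    rw [map_prod, Finset.prod_eq_pow_card hgz, Finset.card_erase_of_mem (Finset.mem_univ _),
      Finset.card_univ, ZMod.card]
  obtain ⟨j, hj⟩ := exists_valuation_eq_zpow hp hA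
    (x := ∏ z ∈ S, g z.val) (fun h => pow_ne_zero (p - 1) hc0 (by rw [← hPval, h, map_zero]))
    hPfix
  rw [hPval] at hj
  have hj1 : j = 1 := by
    refine le_antisymm ?_ ?_
    · nth_rewrite 1 [← zpow_one (A.valuation (p : Qbar))] at hle
      rwa [hj, valuation_zpow_le_zpow_iff hp hA] at hle
    · by_contra! hcon
      have h1 : γ ^ (p - 1) < 1 := pow_lt_one₀ zero_le hc1 (by have := hp.two_le; omega)
      apply h1.not_ge
      rw [hj, ← zpow_zero (A.valuation (p : Qbar)), valuation_zpow_le_zpow_iff hp hA]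
      omega
  rw [hj1, zpow_one] at hj
  obtain ⟨ζ, hζ⟩ := HasEnoughRootsOfUnity.exists_primitiveRoot Qbar p
  have hπval : A.valuation (ζ - 1) = γ :=
    (pow_left_inj₀ zero_le zero_le (by have := hp.two_le; omega)).mp
      ((valuation_sub_one_pow hp hA hζ).trans hj.symm)
  have hπ0 : ζ - 1 ≠ 0 := sub_ne_zero.mpr (hζ.ne_one hp.one_lt)
  obtain ⟨b, -, hb⟩ := hζ.eq_pow_of_pow_eq_one
    (show (σ ζ) ^ p = 1 by rw [← map_pow, hζ.pow_eq_one, map_one])
  set c := h₀ f - h₀ 0 with hc
  set u := c / (ζ - 1) with hudef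
  have hu1 : A.valuation u = 1 := by
    rw [hudef, map_div₀, hπval, ← hγdef, div_self hc0]
  have huc : c = u * (ζ - 1) := (div_mul_cancel₀ _ hπ0).symm
  have hσc : σ c = g a := by
    have h := hσg σ hσ a ha 1
    simpa [g, hc] using h
  have hσu : A.valuation (σ u - u) < 1 :=
    valuation_apply_sub_lt_one hσ ((A.valuation_le_one_iff _).mp hu1.le)
  have hσπ : A.valuation (σ (ζ - 1) - b * (ζ - 1)) < γ := by
    rw [map_sub σ ζ 1, map_one, ← hb, ← hπval]
    exact valuation_pow_sub_one_sub_mul_lt hp hA hζ b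
  have hkey : A.valuation ((((a : ℤ) - b : ℤ) : Qbar) * c) < γ := by
    have e : (((a : ℤ) - b : ℤ) : Qbar) * c = -(g a - a * c) +
        (σ u * (σ (ζ - 1) - b * (ζ - 1)) + (b : Qbar) * (ζ - 1) * (σ u - u)) := by
      have h2 : σ c = σ u * σ (ζ - 1) := by rw [← map_mul, ← huc]
      push_cast
      linear_combination h2 - hσc + (-(b : Qbar)) * huc
    rw [e]
    refine A.valuation.map_add_lt (by rw [Valuation.map_neg]; exact happ a)
      (A.valuation.map_add_lt ?_ ?_)
    · rw [map_mul, valuation_apply_eq (mem_decomposition_of_mem_inertia hσ), hu1, one_mul]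
      exact hσπ
    · rw [map_mul, map_mul, hπval]
      calc _ ≤ 1 * γ * A.valuation (σ u - u) := by
            gcongr
            exact (A.valuation_le_one_iff _).mpr (natCast_mem A b)
        _ < γ := by rw [one_mul]; exact mul_lt_of_lt_one_right (zero_lt_iff.mpr hc0) hσu
  have hdvd : (p : ℤ) ∣ (a : ℤ) - b := by
    by_contra hnd
    rw [map_mul, valuation_intCast_eq_one hp hA hnd, one_mul] at hkey
    exact hkey.false
  obtain ⟨i, -, rfl⟩ := hζ.eq_pow_of_pow_eq_one hμ
  rw [map_pow, ← hb, ← pow_mul, ← pow_mul]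
  apply pow_eq_pow_of_modEq _ hζ.pow_eq_one
  rw [mul_comm i]
  exact (Nat.modEq_iff_dvd.mpr (by simpa using hdvd)).mul_right i

end IntegralModel

end FermatLib.Galois.Flat
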