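import Fermat.Agent.Galois.Flat.Model

/-!
# Invariant functions of an integral model

For an inertia-stable subgroup `N`, the `N`-invariant functions of an integral model form an
integral model of `M ⧸ N`.
-/

set_option autoImplicit false

noncomputable section

open scoped Pointwise

namespace FermatLib.Galois.Flat

local notation "Qbar" => AlgebraicClosure ℚ
local notation "Γℚ" => (AlgebraicClosure ℚ ≃ₐ[ℚ] AlgebraicClosure ℚ)

variable {A : ValuationSubring Qbar} {p : ℕ} {M : Type*} [AddCommGroup M] {act : Γℚ → M →+ M}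

/-- The functions invariant under translation by `N`. -/
def translationInvariant (A : ValuationSubring Qbar) (N : AddSubgroup M) :
    Submodule (inertiaFixedRing A) (M → Qbar) where
  carrier := {h | ∀ x, ∀ n ∈ N, h (x + n) = h x}
  add_mem' ha hb x n hn := by simp [ha x n hn, hb x n hn]
  zero_mem' _ _ _ := rfl
  smul_mem' c h hh x n hn := by simp [hh x n hn]

namespace IntegralModel

variable (G : IntegralModel A act)

/-- The functions of `G` invariant under `N`. -/
def invariants (N : AddSubgroup M) : Submodule (inertiaFixedRing A) (M → Qbar) :=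
  G.fns ⊓ translationInvariant A N

lemma mem_invariants {N : AddSubgroup M} {h : M → Qbar} :
    h ∈ G.invariants N ↔ h ∈ G.fns ∧ ∀ x, ∀ n ∈ N, h (x + n) = h x := Iff.rfl

lemma invariants_eq_of_sub_mem {N : AddSubgroup M} {h : M → Qbar} (hh : h ∈ G.invariants N)
    {x y : M} (hxy : x - y ∈ N) : h x = h y := by
  simpa using (G.mem_invariants.mp hh).2 y _ hxy

include G in
lemma invariants_fg (hp : p.Prime) (hA : A.LiesOverPrime p) (N : AddSubgroup M) :
    (G.invariants N).FG := by
  haveI := inertiaFixedRing_isDiscreteValuationRing hp hA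
  haveI : Module.Finite (inertiaFixedRing A) G.fns := Module.Finite.iff_fg.mpr G.fg
  have h : (Submodule.comap G.fns.subtype (G.invariants N)).FG := IsNoetherian.noetherian _
  have h2 := h.map G.fns.subtype
  rw [Submodule.map_comap_subtype, inf_eq_right.mpr (show G.invariants N ≤ G.fns from inf_le_left)] at h2
  exact h2

/-- A tensor `∑ aᵢ ⊗ bᵢ` invariant in the first variable has a representative with invariant
left factors. -/
lemma exists_left_invariant (hp : p.Prime) (hA : A.LiesOverPrime p) [Finite M]
    {N : AddSubgroup M} (hN : IsInertiaStable A act N) {n : ℕ} (a b : Fin n → M → Qbar)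
    (ha : ∀ i, a i ∈ G.fns)
    (hinv : ∀ x y, ∀ z ∈ N, ∑ i, a i (x + z) * b i y = ∑ i, a i x * b i y) :
    ∃ a' : Fin n → M → Qbar, (∀ i, a' i ∈ G.invariants N) ∧
      ∀ x y, ∑ i, a i x * b i y = ∑ i, a' i x * b i y := by
  classical
  haveI := inertiaFixedRing_isDiscreteValuationRing hp hA
  haveI : Module.Finite (inertiaFixedRing A) G.fns := Module.Finite.iff_fg.mpr G.fg
  let S : Submodule (inertiaFixedRing A) G.fns :=
    Submodule.comap G.fns.subtype (G.invariants N)
  have hS : ∀ (r : inertiaFixedRing A) (h : G.fns), r ≠ 0 → r • h ∈ S → h ∈ S := by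
    intro r h hr hrh
    refine G.mem_invariants.mpr ⟨h.2, fun x z hz => ?_⟩
    have := (G.mem_invariants.mp hrh).2 x z hz
    exact mul_left_cancel₀ (fun e : (r : Qbar) = 0 => hr (Subtype.ext e)) this
  haveI : Module.IsTorsionFree (inertiaFixedRing A) (G.fns ⧸ S) := by
    refine ⟨fun r hr => ?_⟩
    intro u v huv
    obtain ⟨u, rfl⟩ := Submodule.Quotient.mk_surjective S u
    obtain ⟨v, rfl⟩ := Submodule.Quotient.mk_surjective S v
    simp only [← Submodule.Quotient.mk_smul, Submodule.Quotient.eq] at huv
    refine (Submodule.Quotient.eq S).mpr (hS r _ hr.ne_zero ?_)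
    exact (smul_sub r u v).symm ▸ huv
  haveI : Module.Finite (inertiaFixedRing A) (G.fns ⧸ S) :=
    Module.Finite.of_surjective S.mkQ S.mkQ_surjective
  haveI : Module.Free (inertiaFixedRing A) (G.fns ⧸ S) :=
    Module.free_of_finite_type_torsion_free'
  obtain ⟨s, hs⟩ := Module.projective_lifting_property S.mkQ LinearMap.id S.mkQ_surjective
  let β := Module.Free.chooseBasis (inertiaFixedRing A) (G.fns ⧸ S)
  let f : Module.Free.ChooseBasisIndex (inertiaFixedRing A) (G.fns ⧸ S) → M → Qbar :=
    fun k => (s (β k) : M → Qbar)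
  let c : Fin n → M → Qbar := fun i => (s (S.mkQ ⟨a i, ha i⟩) : M → Qbar)
  refine ⟨fun i => a i - c i, fun i => ?_, fun x y => ?_⟩
  · have hmem : (⟨a i, ha i⟩ : G.fns) - s (S.mkQ ⟨a i, ha i⟩) ∈ S := by
      rw [← Submodule.Quotient.eq]
      exact (LinearMap.congr_fun hs (S.mkQ ⟨a i, ha i⟩)).symm
    exact hmem
  -- the functions `(x, z) ↦ f k (x + z) - f k x` are linearly independent
  let act' : Γℚ → M × N → M × N := fun σ w =>
    (act σ w.1, if h : act σ w.2 ∈ N then ⟨act σ w.2, h⟩ else 0)
  let D : (k : Module.Free.ChooseBasisIndex (inertiaFixedRing A) (G.fns ⧸ S)) →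
    M × N → Qbar := fun k w => f k (w.1 + w.2) - f k w.1
  have hli : LinearIndependent Qbar D := by
    refine linearIndependent_of_equivariant hp hA act' (fun σ hσ w => ?_) D
      (fun σ hσ k w => ?_) ?_
    · obtain ⟨x, hx⟩ := G.act_surjective hσ w.1
      obtain ⟨z, hz, hzw⟩ := G.exists_preimage_mem hN hσ w.2.2
      exact ⟨(x, ⟨z, hz⟩), Prod.ext hx (Subtype.ext (by
        simp only [act', dif_pos (hN σ hσ z hz)]; exact hzw))⟩
    · simp only [act', D, dif_pos (hN σ hσ _ w.2.2), ← map_add, map_sub, f,
        G.equivariant σ hσ _ (s (β k)).2]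
    · rw [linearIndependent_iff']
      intro t g hg k hk
      have hmem : s (∑ i ∈ t, g i • β i) ∈ S := by
        refine G.mem_invariants.mpr ⟨(s (∑ i ∈ t, g i • β i)).2, fun x z hz => ?_⟩
        have h0 := congrFun hg (x, ⟨z, hz⟩)
        simp only [Finset.sum_apply, Pi.smul_apply, Pi.zero_apply, D, smul_sub,
          Finset.sum_sub_distrib, sub_eq_zero] at h0
        simpa [map_sum, f, Finset.sum_apply, Submodule.coe_sum] using h0
      have h0 : ∑ i ∈ t, g i • β i = 0 := by
        rw [← Submodule.Quotient.mk_eq_zero S] at hmem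
        exact (LinearMap.congr_fun hs _).symm.trans hmem
      exact linearIndependent_iff'.mp β.linearIndependent t g h0 k hk
  have hcval : ∀ (i : Fin n) (x : M), c i x =
      ∑ k, (β.repr (S.mkQ ⟨a i, ha i⟩) k : Qbar) * f k x := by
    intro i x
    have h := congrArg (fun v : G.fns ⧸ S => (s v : M → Qbar) x) (β.sum_repr (S.mkQ ⟨a i, ha i⟩))
    simp only [map_sum, map_smul, Submodule.coe_sum, Submodule.coe_smul, Finset.sum_apply,
      Pi.smul_apply, Subring.smul_def, smul_eq_mul] at h
    exact h.symm
  have hg : ∀ k, ∑ i, (β.repr (S.mkQ ⟨a i, ha i⟩) k : Qbar) * b i y = 0 := by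
    have hz : ∑ k, (∑ i, (β.repr (S.mkQ ⟨a i, ha i⟩) k : Qbar) * b i y) • D k = 0 := by
      funext w
      simp only [Finset.sum_apply, Pi.smul_apply, smul_eq_mul, Pi.zero_apply, Finset.sum_mul]
      rw [Finset.sum_comm]
      calc ∑ i, ∑ k, (β.repr (S.mkQ ⟨a i, ha i⟩) k : Qbar) * b i y * D k w
          = ∑ i, (c i (w.1 + w.2) - c i w.1) * b i y :=
            Finset.sum_congr rfl fun i _ => by
              rw [hcval, hcval, ← Finset.sum_sub_distrib, Finset.sum_mul]
              exact Finset.sum_congr rfl fun k _ => by simp only [D]; ring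
        _ = ∑ i, (a i (w.1 + w.2) - a i w.1) * b i y := Finset.sum_congr rfl fun i _ => by
            have hmem : (⟨a i, ha i⟩ : G.fns) - s (S.mkQ ⟨a i, ha i⟩) ∈ S := by
              rw [← Submodule.Quotient.eq]
              exact (LinearMap.congr_fun hs (S.mkQ ⟨a i, ha i⟩)).symm
            have h := (G.mem_invariants.mp hmem).2 w.1 w.2 w.2.2
            change a i (w.1 + w.2) - c i (w.1 + w.2) = a i w.1 - c i w.1 at h
            congr 1
            linear_combination -h
        _ = 0 := by
            simp only [sub_mul, Finset.sum_sub_distrib, hinv w.1 y w.2 w.2.2, sub_self]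
    intro k
    exact (Fintype.linearIndependent_iff.mp hli) _ hz k
  have hzero : ∑ i, c i x * b i y = 0 := by
    simp only [hcval, Finset.sum_mul]
    rw [Finset.sum_comm]
    refine Finset.sum_eq_zero fun k _ => ?_
    rw [← mul_zero (f k x), ← hg k, Finset.mul_sum]
    exact Finset.sum_congr rfl fun i _ => by ring
  simp only [Pi.sub_apply, sub_mul, Finset.sum_sub_distrib, hzero, sub_zero]

/-- The invariant functions are closed under comultiplication. -/
lemma comul_invariants (hp : p.Prime) (hA : A.LiesOverPrime p) [Finite M]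
    {N : AddSubgroup M} (hN : IsInertiaStable A act N) {h : M → Qbar}
    (hh : h ∈ G.invariants N) :
    ∃ (n : ℕ) (a b : Fin n → M → Qbar), (∀ i, a i ∈ G.invariants N) ∧
      (∀ i, b i ∈ G.invariants N) ∧ ∀ x y, h (x + y) = ∑ i, a i x * b i y := by
  obtain ⟨hh1, hh2⟩ := G.mem_invariants.mp hh
  obtain ⟨n, a, b, ha, hb, hab⟩ := G.comul h hh1
  obtain ⟨a', ha', haa'⟩ := G.exists_left_invariant hp hA hN a b ha fun x y z hz => by
    rw [← hab, ← hab, add_right_comm, hh2 _ z hz]
  obtain ⟨b', hb', hbb'⟩ := G.exists_left_invariant hp hA hN b a' hb fun x y z hz => by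
    simp only [mul_comm (b _ _)]
    rw [← haa', ← haa', ← hab, ← hab, ← add_assoc, hh2 _ z hz]
  refine ⟨n, a', b', ha', hb', fun x y => ?_⟩
  rw [hab, haa']
  simpa only [mul_comm] using hbb' y x

/-- The invariant functions separate the points outside `N` from `0`. -/
lemma separates_invariants (hp : p.Prime) (hA : A.LiesOverPrime p) [Finite M]
    {N : AddSubgroup M} (hN : IsInertiaStable A act N) {x : M} (hx : x ∉ N) :
    ∃ h ∈ G.invariants N, h x ≠ h 0 := by
  classical
  haveI := Fintype.ofFinite M
  haveI := inertiaFixedRing_isDiscreteValuationRing hp hA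
  haveI : Module.Finite (inertiaFixedRing A) G.fns := Module.Finite.iff_fg.mpr G.fg
  let W : Submodule Qbar (M → Qbar) := Submodule.span Qbar (G.fns : Set (M → Qbar))
  have hWmul : ∀ u ∈ W, ∀ v ∈ W, u * v ∈ W := by
    intro u hu v hv
    have h := Submodule.mul_mem_mul hu hv
    rw [show W * W = Submodule.span Qbar ((G.fns : Set (M → Qbar)) * (G.fns : Set (M → Qbar))) from
      Submodule.span_mul_span _ _ _] at h
    refine Submodule.span_le.mpr ?_ h
    rintro _ ⟨u', hu', v', hv', rfl⟩
    exact Submodule.subset_span (G.fns_mul_mem u' v' hu' hv')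
  have hWconst : ∀ c : Qbar, (fun _ => c) ∈ W := fun c => by
    have : (fun _ : M => c) = c • (fun _ => (1 : Qbar)) := by funext; simp
    rw [this]
    exact W.smul_mem c (Submodule.subset_span G.fns_one_mem)
  have hWtrans : ∀ u ∈ W, ∀ z : M, (fun w => u (w + z)) ∈ W := by
    intro u hu z
    induction hu using Submodule.span_induction with
    | mem v hv =>
      obtain ⟨n, a, b, ha, -, hab⟩ := G.comul v hv
      have : (fun w => v (w + z)) = ∑ i, b i z • a i := by
        funext w; simp [hab, Finset.sum_apply, mul_comm]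
      rw [this]
      exact W.sum_mem fun i _ => W.smul_mem _ (Submodule.subset_span (ha i))
    | zero => exact W.zero_mem
    | add v v' _ _ h h' => exact W.add_mem h h'
    | smul c v _ h => exact W.smul_mem c h
  have hdelta : (fun w : M => if w = 0 then (1 : Qbar) else 0) ∈ W := by
    have hsep : ∀ y : M, ∃ g ∈ W, g 0 = 1 ∧ (y ≠ 0 → g y = 0) := by
      intro y
      by_cases hy : y = 0
      · exact ⟨_, hWconst 1, rfl, fun h => absurd hy h⟩
      obtain ⟨h, hh, hne⟩ := G.separates y hy
      refine ⟨(h 0 - h y)⁻¹ • (h - fun _ => h y),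
        W.smul_mem _ (W.sub_mem (Submodule.subset_span hh) (hWconst _)), ?_, ?_⟩
      · simp [inv_mul_cancel₀ (sub_ne_zero.mpr hne.symm)]
      · simp
    choose g hgW hg0 hgy using hsep
    have : (fun w : M => if w = 0 then (1 : Qbar) else 0) = ∏ y, g y := by
      funext w
      rw [Finset.prod_apply]
      split_ifs with hw
      · subst hw; exact (Finset.prod_eq_one fun y _ => hg0 y).symm
      · exact (Finset.prod_eq_zero (f := fun y => g y w) (Finset.mem_univ w) (hgy w hw)).symm
    rw [this]
    exact Finset.prod_induction _ (fun v => v ∈ W) (fun a b ha hb => hWmul a ha b hb)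
      (hWconst 1) fun y _ => hgW y
  let χ : M → Qbar := fun w => if w ∈ N then 1 else 0
  have hχ : χ ∈ W := by
    have : χ = ∑ z : N, fun w => if w + (z : M) = 0 then (1 : Qbar) else 0 := by
      funext w
      rw [Finset.sum_apply]
      by_cases hw : w ∈ N
      · rw [Finset.sum_eq_single (⟨-w, N.neg_mem hw⟩ : N)]
        · simp [χ, hw]
        · intro z _ hz
          rw [if_neg]
          intro h
          exact hz (Subtype.ext (eq_neg_of_add_eq_zero_right h))
        · exact fun h => absurd (Finset.mem_univ _) h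
      · rw [Finset.sum_eq_zero]
        · simp [χ, hw]
        · intro z _
          rw [if_neg]
          intro h
          exact hw (eq_neg_of_add_eq_zero_left h ▸ N.neg_mem z.2)
    rw [this]
    exact W.sum_mem fun z _ => hWtrans _ hdelta z
  let β := Module.Free.chooseBasis (inertiaFixedRing A) G.fns
  let e : Module.Free.ChooseBasisIndex (inertiaFixedRing A) G.fns → M → Qbar :=
    fun k => (β k : M → Qbar)
  have hli : LinearIndependent Qbar e := by
    refine linearIndependent_of_equivariant hp hA (fun σ => act σ)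
      (fun σ hσ => G.act_surjective hσ) e (fun σ hσ k w => G.equivariant σ hσ _ (β k).2 w) ?_
    exact β.linearIndependent.map' G.fns.subtype (Submodule.ker_subtype _)
  have hWe : W ≤ Submodule.span Qbar (Set.range e) := by
    refine Submodule.span_le.mpr fun v hv => ?_
    have : v = ∑ k, (β.repr ⟨v, hv⟩ k : Qbar) • e k := by
      funext w
      have h := congrArg (fun u : G.fns => (u : M → Qbar) w) (β.sum_repr ⟨v, hv⟩)
      simp only [Submodule.coe_sum, Submodule.coe_smul, Finset.sum_apply, Pi.smul_apply,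
        Subring.smul_def, smul_eq_mul] at h
      simp only [Finset.sum_apply, Pi.smul_apply, smul_eq_mul, e]
      exact h.symm
    rw [this]
    exact Submodule.sum_mem _ fun k _ =>
      Submodule.smul_mem _ _ (Submodule.subset_span ⟨k, rfl⟩)
  obtain ⟨d, hd⟩ := (Submodule.mem_span_range_iff_exists_fun Qbar).mp (hWe hχ)
  have hdfix : ∀ k, ∀ σ ∈ A.inertiaSubgroupIn ℚ, σ (d k) = d k := by
    intro k σ hσ
    have hz : ∑ j, (σ (d j) - d j) • e j = 0 := by
      funext w
      obtain ⟨y, rfl⟩ := G.act_surjective hσ w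
      have h1 := congrFun hd y
      have h2 := congrFun hd (act σ y)
      have hχy : χ (act σ y) = σ (χ y) := by
        by_cases hy : y ∈ N
        · simp [χ, hy, hN σ hσ y hy]
        · simp [χ, hy, show act σ y ∉ N from fun h => hy (G.mem_of_act_mem hN hσ h)]
      simp only [Finset.sum_apply, Pi.smul_apply, smul_eq_mul, Pi.zero_apply, sub_mul,
        Finset.sum_sub_distrib] at h1 h2 ⊢
      rw [sub_eq_zero, h2, hχy, ← h1, map_sum]
      exact Finset.sum_congr rfl fun j _ => by
        rw [map_mul, ← G.equivariant σ hσ _ (β j).2]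
    exact sub_eq_zero.mp ((Fintype.linearIndependent_iff.mp hli) _ hz k)
  have hm : ∀ k, ∃ m : ℕ, (p : Qbar) ^ m * d k ∈ A := fun k =>
    exists_pow_mul_mem_A hp hA (hdfix k)
  choose m hm using hm
  let m0 := Finset.univ.sup m
  have hmem : ∀ k, (p : Qbar) ^ m0 * d k ∈ inertiaFixedRing A := fun k => by
    refine ⟨?_, fun σ hσ => by rw [map_mul, map_pow, map_natCast, hdfix k σ hσ]⟩
    rw [show m0 = (m0 - m k) + m k from
      (Nat.sub_add_cancel (Finset.le_sup (f := m) (Finset.mem_univ k))).symm, pow_add, mul_assoc]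
    exact mul_mem (pow_mem (natCast_mem A p) _) (hm k)
  let g : M → Qbar := ∑ k, (⟨_, hmem k⟩ : inertiaFixedRing A) • e k
  have hgval : ∀ w, g w = (p : Qbar) ^ m0 * χ w := fun w => by
    rw [← congrFun hd w]
    simp only [g, Finset.sum_apply, Pi.smul_apply, Subring.smul_def, smul_eq_mul, Finset.mul_sum,
      mul_assoc]
  refine ⟨g, G.mem_invariants.mpr ⟨Submodule.sum_mem _ fun k _ =>
    Submodule.smul_mem _ _ (β k).2, fun w z hz => ?_⟩, ?_⟩
  · rw [hgval, hgval]
    simp [χ, N.add_mem_cancel_right hz]
  · rw [hgval, hgval]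
    simp [χ, hx, eq_comm (a := (0 : Qbar)), hp.ne_zero]

end IntegralModel

end FermatLib.Galois.Flat
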