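import Fermat.Agent.Galois.Flat.Connected

/-!
# Finite flat modules killed by `p` are peu ramifiés

If a point killed by `p` is rational over the extension of the inertia field generated by `ζ_p` and
a `p`-th root `β`, then either it is rational over the field generated by `ζ_p`, or the valuation
of `β` is an integral power of that of `p`.
-/

set_option autoImplicit false

noncomputable section

namespace FermatLib.Galois.Flat

local notation "Qbar" => AlgebraicClosure ℚ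
local notation "Γℚ" => (AlgebraicClosure ℚ ≃ₐ[ℚ] AlgebraicClosure ℚ)

variable {A : ValuationSubring Qbar} {p : ℕ}

/-- An element fixed by the inertia elements fixing `ζ` has a power, prime to `p`, with valuation
an integral power of that of `p`. -/
lemma exists_valuation_pow_eq_zpow (hp : p.Prime) (hA : A.LiesOverPrime p) {ζ l : Qbar}
    (hζ : IsPrimitiveRoot ζ p) (hl0 : l ≠ 0)
    (hl : ∀ σ ∈ A.inertiaSubgroupIn ℚ, σ ζ = ζ → σ l = l) :
    ∃ (k : ℕ) (i : ℤ), ¬ p ∣ k ∧ A.valuation l ^ k = A.valuation (p : Qbar) ^ i := by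
  classical
  have : Fact p.Prime := ⟨hp⟩
  have : NeZero p := ⟨hp.ne_zero⟩
  let S : Finset Qbar :=
    (primitiveRoots p Qbar).filter fun s => ∃ σ ∈ A.inertiaSubgroupIn ℚ, σ ζ = s
  have hex : ∀ s ∈ S, ∃ σ ∈ A.inertiaSubgroupIn ℚ, σ ζ = s := fun s hs =>
    (Finset.mem_filter.mp hs).2
  choose! t ht htζ using hex
  have hwd : ∀ σ ∈ A.inertiaSubgroupIn ℚ, ∀ τ ∈ A.inertiaSubgroupIn ℚ, σ ζ = τ ζ →
      σ l = τ l := by
    intro σ hσ τ hτ h
    have h1 : (τ⁻¹ * σ) l = l := hl _ (mul_mem (inv_mem hτ) hσ) (by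
      rw [AlgEquiv.mul_apply, h]; exact τ.symm_apply_apply ζ)
    rw [AlgEquiv.mul_apply] at h1
    calc σ l = τ (τ⁻¹ (σ l)) := (τ.apply_symm_apply _).symm
      _ = τ l := by rw [h1]
  have hmemS : ∀ τ ∈ A.inertiaSubgroupIn ℚ, ∀ s ∈ S, τ s ∈ S := by
    intro τ hτ s hs
    refine Finset.mem_filter.mpr ⟨?_, τ * t s, mul_mem hτ (ht s hs), by
      rw [AlgEquiv.mul_apply, htζ s hs]⟩
    rw [mem_primitiveRoots hp.pos]
    exact ((mem_primitiveRoots hp.pos).mp (Finset.mem_filter.mp hs).1).map_of_injective τ.injective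
  have hζS : ζ ∈ S := Finset.mem_filter.mpr
    ⟨(mem_primitiveRoots hp.pos).mpr hζ, 1, one_mem _, rfl⟩
  have hcard : ¬ p ∣ S.card := by
    have h1 : S.card ≤ p - 1 := by
      refine (Finset.card_filter_le _ _).trans ?_
      rw [hζ.card_primitiveRoots, Nat.totient_prime hp]
    have h2 : 0 < S.card := Finset.card_pos.mpr ⟨ζ, hζS⟩
    exact Nat.not_dvd_of_pos_of_lt h2 (by omega)
  have hfix : ∀ τ ∈ A.inertiaSubgroupIn ℚ, τ (∏ s ∈ S, t s l) = ∏ s ∈ S, t s l := by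
    intro τ hτ
    rw [map_prod]
    refine Finset.prod_nbij' (fun s => τ s) (fun s => τ⁻¹ s) (hmemS τ hτ)
      (hmemS τ⁻¹ (inv_mem hτ)) (fun s _ => τ.symm_apply_apply s)
      (fun s _ => τ.apply_symm_apply s) fun s hs => ?_
    rw [← AlgEquiv.mul_apply]
    exact hwd _ (mul_mem hτ (ht s hs)) _ (ht _ (hmemS τ hτ s hs)) (by
      rw [AlgEquiv.mul_apply, htζ s hs, htζ _ (hmemS τ hτ s hs)])
  have hval : A.valuation (∏ s ∈ S, t s l) = A.valuation l ^ S.card := by
    rw [map_prod]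
    exact Finset.prod_eq_pow_card fun s hs =>
      valuation_apply_eq (mem_decomposition_of_mem_inertia (ht s hs)) l
  obtain ⟨i, hi⟩ := exists_valuation_eq_zpow hp hA (x := ∏ s ∈ S, t s l)
    (Finset.prod_ne_zero_iff.mpr fun s _ => (map_ne_zero (t s)).mpr hl0) hfix
  exact ⟨S.card, i, hcard, hval ▸ hi⟩

/-- Congruence of exponents from equal valuations. -/
lemma dvd_sub_of_pow_valuation_eq (hp : p.Prime) (hA : A.LiesOverPrime p) {γ δ : A.ValueGroup}
    (h : γ = δ) {k k' : ℕ} {m m' : ℤ} (hk : γ ^ (p * k) = A.valuation (p : Qbar) ^ m)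
    (hk' : δ ^ (p * k') = A.valuation (p : Qbar) ^ m') : (p : ℤ) ∣ m * k' - m' * k := by
  subst h
  have e : A.valuation (p : Qbar) ^ (m * k') = A.valuation (p : Qbar) ^ (m' * k) := by
    rw [zpow_mul, zpow_mul, ← hk, ← hk', zpow_natCast, zpow_natCast, ← pow_mul, ← pow_mul]
    ring_nf
  have := valuation_zpow_injective hp hA e
  simp [this]

namespace IntegralModel

variable {M : Type*} [AddCommGroup M] {act : Γℚ → M →+ M} (G : IntegralModel A act)

include G in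
/-- If `x` modulo `N` is fixed by the inertia elements fixing `ζ` and `β`, where `β ^ p` is fixed
by inertia, and `p • (σ x - x) ∈ N`, then either `x` is fixed by the inertia elements fixing `ζ` or
`β` has valuation an integral power of that of `p`. -/
theorem fixed_or_valuation_eq_zpow (hp : p.Prime) (hA : A.LiesOverPrime p) [Finite M]
    {N : AddSubgroup M} (hN : IsInertiaStable A act N)
    {x : M} {ζ β : Qbar} (hζ : IsPrimitiveRoot ζ p) (hβ0 : β ≠ 0)
    (hβ : ∀ σ ∈ A.inertiaSubgroupIn ℚ, σ (β ^ p) = β ^ p)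
    (hx : ∀ σ ∈ A.inertiaSubgroupIn ℚ, σ ζ = ζ → σ β = β → act σ x - x ∈ N)
    (hpx : ∀ σ ∈ A.inertiaSubgroupIn ℚ, σ ζ = ζ → p • (act σ x - x) ∈ N) :
    (∀ σ ∈ A.inertiaSubgroupIn ℚ, σ ζ = ζ → act σ x - x ∈ N) ∨
      ∃ k : ℤ, A.valuation β = A.valuation (p : Qbar) ^ k := by
  classical
  have : Fact p.Prime := ⟨hp⟩
  have : NeZero p := ⟨hp.ne_zero⟩
  have hpne := valuation_prime_ne_zero (A := A) hp
  refine or_iff_not_imp_left.mpr fun hnot => ?_
  push Not at hnot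
  obtain ⟨σ₁, hσ₁, hσ₁ζ, hσ₁x⟩ := hnot
  obtain ⟨n, hn⟩ := exists_valuation_eq_zpow hp hA (pow_ne_zero p hβ0) hβ
  rw [map_pow] at hn
  by_contra hnone
  have hpn : ¬ (p : ℤ) ∣ n := by
    rintro ⟨k, rfl⟩
    refine hnone ⟨k, (pow_left_inj₀ zero_le zero_le hp.ne_zero).mp ?_⟩
    rw [hn, ← zpow_natCast, ← zpow_mul, mul_comm]
  -- change the root of unity
  obtain ⟨i₁, -, hi₁⟩ := hζ.eq_pow_of_pow_eq_one (ξ := σ₁ β / β) (by
    rw [div_pow, ← map_pow, hβ σ₁ hσ₁, div_self (pow_ne_zero p hβ0)])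
  have hi₁p : ¬ p ∣ i₁ := by
    rintro ⟨k, rfl⟩
    rw [pow_mul, hζ.pow_eq_one, one_pow] at hi₁
    exact hσ₁x (hx σ₁ hσ₁ hσ₁ζ ((div_eq_one_iff_eq hβ0).mp hi₁.symm))
  let ξ := ζ ^ i₁
  have hξ : IsPrimitiveRoot ξ p := hζ.pow_of_coprime i₁ ((hp.coprime_iff_not_dvd.mpr hi₁p).symm)
  have hfixξ : ∀ σ : Γℚ, σ ξ = ξ ↔ σ ζ = ζ := by
    intro σ
    refine ⟨fun h => ?_, fun h => by simp [ξ, h]⟩
    obtain ⟨j, -, hj⟩ := hξ.eq_pow_of_pow_eq_one hζ.pow_eq_one
    rw [← hj, map_pow, h]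
  have hσ₁β : σ₁ β = ξ * β := ((div_eq_iff hβ0).mp hi₁.symm)
  have hpowβ : ∀ k : ℕ, (σ₁ ^ k) β = ξ ^ k * β := by
    intro k
    induction k with
    | zero => simp
    | succ k ih =>
      rw [pow_succ' σ₁, AlgEquiv.mul_apply, ih, map_mul, map_pow, hσ₁β,
        (hfixξ σ₁).mpr hσ₁ζ, pow_succ, mul_assoc]
  -- the function detecting `σ₁ x - x`
  set d := act σ₁ x - x with hd
  have hdconn : d ∈ G.conn := G.act_sub_mem_conn hσ₁ x
  obtain ⟨h₀, hh₀, hc0, hγ⟩ := G.exists_dominant hp hA hN hσ₁x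
  have hh₀' := (G.mem_invariants.mp hh₀).1
  have hc1 := hdconn h₀ hh₀'
  have hle := G.valuation_prime_le_pow hp hA hN (hpx σ₁ hσ₁ hσ₁ζ) hh₀ hc0 hc1 hγ
  set γ := A.valuation (h₀ d - h₀ 0) with hγdef
  obtain ⟨h, hh, hhγ⟩ : ∃ h ∈ G.invariants N, γ ≤ A.valuation (h (x + d) - h x) := by
    obtain ⟨m, a, b, ha, hb, hab⟩ := G.comul_invariants hp hA hN hh₀
    by_contra! hcon
    have e : h₀ d - h₀ 0 = ∑ i, (a i (x + d) - a i x) * b i (-x) := by
      simp only [sub_mul, Finset.sum_sub_distrib, ← hab, add_neg_cancel, add_neg_cancel_comm]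
    have hlt : γ < γ := by
      conv_lhs => rw [hγdef, e]
      refine A.valuation.map_sum_lt hc0 fun i _ => ?_
      rw [map_mul]
      exact (mul_le_of_le_one_right'
        (G.valuation_apply_le_one (G.mem_invariants.mp (hb i)).1 _)).trans_lt (hcon _ (ha i))
    exact hlt.false
  have hh' := (G.mem_invariants.mp hh).1
  set y := h x with hy
  have hσ₁y : h (x + d) = σ₁ y := by
    rw [hy, ← G.equivariant σ₁ hσ₁ h hh', hd, add_sub_cancel]
  have hyfix : ∀ σ ∈ A.inertiaSubgroupIn ℚ, σ ζ = ζ → σ β = β → σ y = y := by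
    intro σ hσ h1 h2
    rw [hy, ← G.equivariant σ hσ h hh']
    exact G.invariants_eq_of_sub_mem hh (hx σ hσ h1 h2)
  have hshift : ∀ σ ∈ A.inertiaSubgroupIn ℚ, σ ζ = ζ → ∀ i : ℕ, σ β = ξ ^ i * β →
      σ y = (σ₁ ^ i) y := by
    intro σ hσ h1 i h2
    have hi : ((σ₁ ^ i)⁻¹ * σ) y = y := by
      have hfixi : ∀ z : Qbar, σ z = (σ₁ ^ i) z → ((σ₁ ^ i)⁻¹ * σ) z = z := fun z hz => by
        rw [AlgEquiv.mul_apply, hz]; exact (σ₁ ^ i).symm_apply_apply z
      refine hyfix _ (mul_mem (inv_mem (pow_mem hσ₁ i)) hσ) (hfixi ζ ?_) (hfixi β ?_)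
      · rw [h1, apply_iterate_eq, Function.iterate_fixed hσ₁ζ]
      · rw [h2, hpowβ]
    rw [AlgEquiv.mul_apply] at hi
    calc σ y = (σ₁ ^ i) ((σ₁ ^ i)⁻¹ (σ y)) := ((σ₁ ^ i).apply_symm_apply _).symm
      _ = (σ₁ ^ i) y := by rw [hi]
  have hperiod : (σ₁ ^ p) y = y :=
    hyfix _ (pow_mem hσ₁ p) (by rw [apply_iterate_eq, Function.iterate_fixed hσ₁ζ])
      (by rw [hpowβ, hξ.pow_eq_one, one_mul])
  -- eigencomponents
  let z : ℕ → Qbar := fun j => ∑ k ∈ Finset.range p, (ξ ^ (j * k))⁻¹ * (σ₁ ^ k) y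
  have hξ0 : ξ ≠ 0 := hξ.ne_zero hp.ne_zero
  have hsum : ∑ j ∈ Finset.range p, z j = (p : Qbar) * y := by
    simp only [z]
    rw [Finset.sum_comm, Finset.sum_eq_single_of_mem 0 (Finset.mem_range.mpr hp.pos)]
    · simp
    · intro k hk hk0
      rw [← Finset.sum_mul]
      have hprim : IsPrimitiveRoot ((ξ ^ k)⁻¹) p :=
        (hξ.pow_of_coprime k ((hp.coprime_iff_not_dvd.mpr
          (Nat.not_dvd_of_pos_of_lt (by omega) (Finset.mem_range.mp hk))).symm)).inv
      have hgeom : ∑ j ∈ Finset.range p, (ξ ^ (j * k))⁻¹ = 0 := by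
        rw [← hprim.geom_sum_eq_zero hp.one_lt]
        exact Finset.sum_congr rfl fun j _ => by rw [mul_comm j k, inv_pow, pow_mul]
      rw [hgeom, zero_mul]
  have hσ₁z : ∀ j, σ₁ (z j) = ξ ^ j * z j := by
    intro j
    let F : ℕ → Qbar := fun k => (ξ ^ (j * k))⁻¹ * (σ₁ ^ k) y
    have h1 : σ₁ (z j) = ∑ k ∈ Finset.range p, ξ ^ j * F (k + 1) := by
      simp only [z, map_sum]
      refine Finset.sum_congr rfl fun k _ => ?_
      simp only [F, map_mul, map_inv₀, map_pow, (hfixξ σ₁).mpr hσ₁ζ]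
      rw [← AlgEquiv.mul_apply, ← pow_succ', mul_add, mul_one, pow_add ξ, mul_inv]
      field_simp
    have h2 : ∑ k ∈ Finset.range p, F (k + 1) = ∑ k ∈ Finset.range p, F k := by
      have e1 := Finset.sum_range_succ' F p
      have e2 := Finset.sum_range_succ F p
      have e3 : F p = F 0 := by
        simp only [F, pow_zero, inv_one, one_mul, pow_mul', hξ.pow_eq_one, one_pow,
          hperiod]
        rfl
      linear_combination e2 - e1 + e3
    rw [h1, ← Finset.mul_sum, h2]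
  have hσpowz : ∀ (i j : ℕ), (σ₁ ^ i) (z j) = ξ ^ (i * j) * z j := by
    intro i j
    induction i with
    | zero => simp
    | succ i ih =>
      rw [pow_succ' σ₁, AlgEquiv.mul_apply, ih, map_mul, map_pow, (hfixξ σ₁).mpr hσ₁ζ, hσ₁z,
        ← mul_assoc, ← pow_add, Nat.succ_mul]
  have hlfix : ∀ j, ∀ σ ∈ A.inertiaSubgroupIn ℚ, σ ζ = ζ → σ (z j / β ^ j) = z j / β ^ j := by
    intro j σ hσ hσζ
    obtain ⟨i, -, hi⟩ := hξ.eq_pow_of_pow_eq_one (ξ := σ β / β) (by
      rw [div_pow, ← map_pow, hβ σ hσ, div_self (pow_ne_zero p hβ0)])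
    have hσβ : σ β = ξ ^ i * β := (div_eq_iff hβ0).mp hi.symm
    have hσξ := (hfixξ σ).mpr hσζ
    have hzj : σ (z j) = (σ₁ ^ i) (z j) := by
      simp only [z, map_sum, map_mul, map_inv₀, map_pow, hσξ]
      refine Finset.sum_congr rfl fun k _ => ?_
      have hξi : (σ₁ ^ i) ξ = ξ := by
        rw [apply_iterate_eq, Function.iterate_fixed ((hfixξ σ₁).mpr hσ₁ζ)]
      rw [hξi, ← AlgEquiv.mul_apply, ← AlgEquiv.mul_apply, ← pow_add]
      congr 1
      refine hshift _ (mul_mem hσ (pow_mem hσ₁ k)) ?_ (i + k) ?_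
      · rw [AlgEquiv.mul_apply, apply_iterate_eq, Function.iterate_fixed hσ₁ζ, hσζ]
      · rw [AlgEquiv.mul_apply, hpowβ, map_mul, map_pow, hσξ, hσβ, pow_add]; ring
    rw [map_div₀, map_pow, hzj, hσpowz, hσβ, mul_pow, pow_mul ξ,
      mul_div_mul_left _ _ (pow_ne_zero _ (pow_ne_zero _ hξ0))]
  have hzval : ∀ j, z j ≠ 0 → ∃ (k : ℕ) (i : ℤ), ¬ p ∣ k ∧
      A.valuation (z j) ^ (p * k) = A.valuation (p : Qbar) ^ (n * j * k + p * i) := by
    intro j hzj
    obtain ⟨k, i, hk, hki⟩ := exists_valuation_pow_eq_zpow hp hA hζ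
      (div_ne_zero hzj (pow_ne_zero j hβ0)) (hlfix j)
    refine ⟨k, i, hk, ?_⟩
    have e : z j = β ^ j * (z j / β ^ j) := (mul_div_cancel₀ _ (pow_ne_zero j hβ0)).symm
    rw [e, map_mul, mul_pow, map_pow, ← pow_mul, show j * (p * k) = p * (j * k) by ring, pow_mul,
      hn, mul_comm p k, pow_mul (A.valuation (z j / β ^ j)), hki, ← zpow_natCast, ← zpow_natCast,
      ← zpow_mul, ← zpow_mul, ← zpow_add₀ hpne]
    push_cast
    ring_nf
  have hpy : A.valuation ((p : Qbar) * y) ≤ A.valuation (p : Qbar) := by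
    rw [map_mul]; exact mul_le_of_le_one_right' (G.valuation_apply_le_one hh' x)
  have hdvd : ∀ {a : ℤ} {b : ℕ}, ¬ p ∣ b → (p : ℤ) ∣ a * b → (p : ℤ) ∣ a := fun {a b} hb h =>
    ((Nat.prime_iff_prime_int.mp hp).dvd_or_dvd h).resolve_right (by exact_mod_cast hb)
  have hle_p : ∀ j ∈ Finset.range p, A.valuation (z j) ≤ A.valuation (p : Qbar) := by
    intro j hj
    obtain ⟨j₀, hj₀, hmax⟩ := (Finset.range p).exists_max_image (fun j => A.valuation (z j))
      ⟨j, hj⟩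
    rcases eq_or_ne (z j₀) 0 with h0 | h0
    · exact ((hmax j hj).trans (by rw [h0, map_zero])).trans zero_le
    refine (hmax j hj).trans (le_trans (le_of_eq ?_) hpy)
    rw [← hsum]
    refine (A.valuation.map_sum_eq_of_lt hj₀ fun i hi => ?_).symm
    rw [Finset.mem_sdiff, Finset.mem_singleton] at hi
    refine lt_of_le_of_ne (hmax i hi.1) fun heq => hi.2 ?_
    have hzi : z i ≠ 0 := fun h => h0 (A.valuation.zero_iff.mp (by simpa [h] using heq.symm))
    obtain ⟨k, m, hk, hkm⟩ := hzval i hzi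
    obtain ⟨k', m', hk', hkm'⟩ := hzval j₀ h0
    have := dvd_sub_of_pow_valuation_eq hp hA heq hkm hkm'
    have h3 : (p : ℤ) ∣ n * (((i : ℤ) - j₀) * ((k * k' : ℕ) : ℤ)) := by
      have hmm : (p : ℤ) ∣ p * (m * k' - m' * k) := dvd_mul_right _ _
      have h4 := dvd_sub this hmm
      refine h4.trans (dvd_of_eq ?_)
      push_cast
      ring
    have h5 := hdvd (hp.not_dvd_mul hk hk')
      (((Nat.prime_iff_prime_int.mp hp).dvd_or_dvd h3).resolve_left hpn)
    have := Int.eq_zero_of_abs_lt_dvd h5 (by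
      have := Finset.mem_range.mp hi.1; have := Finset.mem_range.mp hj₀
      rw [abs_lt]; omega)
    omega
  have hπval := valuation_sub_one_pow hp hA hξ
  have hπ0 : A.valuation (ξ - 1) ≠ 0 := by
    rw [ne_eq, map_eq_zero, sub_eq_zero]; exact hξ.ne_one hp.one_lt
  have hsmall : A.valuation (σ₁ ((p : Qbar) * y) - p * y) <
      A.valuation (ξ - 1) * A.valuation (p : Qbar) := by
    rw [← hsum, map_sum, ← Finset.sum_sub_distrib]
    refine A.valuation.map_sum_lt (mul_ne_zero hπ0 hpne) fun j hj => ?_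
    rw [hσ₁z, show ξ ^ j * z j - z j = (ξ ^ j - 1) * z j by ring, map_mul]
    rcases Nat.eq_zero_or_pos j with rfl | hj0
    · simp only [pow_zero, sub_self, map_zero, zero_mul]
      exact mul_pos (zero_lt_iff.mpr hπ0) (zero_lt_iff.mpr hpne)
    refine lt_of_le_of_lt (mul_le_mul_left (valuation_pow_sub_one_le hp hA hξ j) _)
      (mul_lt_mul_of_pos_left ?_ (zero_lt_iff.mpr hπ0))
    refine lt_of_le_of_ne (hle_p j hj) fun heq => ?_
    obtain ⟨k, m, hk, hkm⟩ := hzval j (fun h => hpne (by rw [← heq, h, map_zero]))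
    rw [heq, ← zpow_natCast] at hkm
    have h6 := valuation_zpow_injective hp hA hkm
    have h7 : (p : ℤ) ∣ n * (((j : ℕ) : ℤ) * (k : ℤ)) := ⟨k - m, by
      push_cast at h6; linear_combination -h6⟩
    have h8 := hdvd hk (((Nat.prime_iff_prime_int.mp hp).dvd_or_dvd h7).resolve_left hpn)
    exact Nat.not_dvd_of_pos_of_lt hj0 (Finset.mem_range.mp hj) (by exact_mod_cast h8)
  rw [map_mul, map_natCast, ← mul_sub, map_mul, mul_comm] at hsmall
  have hlt := (mul_lt_mul_iff_left₀ (zero_lt_iff.mpr hpne)).mp hsmall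
  rw [← hσ₁y] at hlt
  have : A.valuation (p : Qbar) < A.valuation (p : Qbar) :=
    calc A.valuation (p : Qbar) ≤ γ ^ (p - 1) := hle
      _ < A.valuation (ξ - 1) ^ (p - 1) :=
          pow_lt_pow_left₀ (hhγ.trans_lt hlt) zero_le (by have := hp.two_le; omega)
      _ = _ := hπval
  exact this.false

end IntegralModel

end FermatLib.Galois.Flat
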