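import Fermat.Agent.Galois.Flat.Ramification
import Mathlib.LinearAlgebra.FreeModule.PID
import Mathlib.RingTheory.DiscreteValuationRing.Basic

/-!
# Integral models of finite inertia modules

An integral model of a finite abelian group `M` with an action of inertia at a place `A` of `ℚ̄`
is a finite module, over the ring of inertia-fixed elements of `A`, of functions `M → ℚ̄` which is a
Hopf algebra of `M`. The points of a finite flat group scheme give such models.
-/

set_option autoImplicit false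

noncomputable section

namespace FermatLib.Galois.Flat

local notation "Qbar" => AlgebraicClosure ℚ
local notation "Γℚ" => (AlgebraicClosure ℚ ≃ₐ[ℚ] AlgebraicClosure ℚ)

/-- The elements of `A` fixed by the inertia subgroup of `A`. -/
def inertiaFixedRing (A : ValuationSubring Qbar) : Subring Qbar where
  carrier := {x | x ∈ A ∧ ∀ σ ∈ A.inertiaSubgroupIn ℚ, σ x = x}
  mul_mem' ha hb := ⟨mul_mem ha.1 hb.1, fun σ hσ => by rw [map_mul, ha.2 σ hσ, hb.2 σ hσ]⟩
  one_mem' := ⟨one_mem A, fun σ _ => map_one σ⟩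
  add_mem' ha hb := ⟨add_mem ha.1 hb.1, fun σ hσ => by rw [map_add, ha.2 σ hσ, hb.2 σ hσ]⟩
  zero_mem' := ⟨zero_mem A, fun σ _ => map_zero σ⟩
  neg_mem' ha := ⟨neg_mem ha.1, fun σ hσ => by rw [map_neg, ha.2 σ hσ]⟩

variable {A : ValuationSubring Qbar} {p : ℕ}

lemma natCast_mem_inertiaFixedRing (n : ℕ) : (n : Qbar) ∈ inertiaFixedRing A :=
  natCast_mem _ n

lemma exists_pow_mul_mem_A (hp : p.Prime) (hA : A.LiesOverPrime p) {x : Qbar}
    (hfix : ∀ σ ∈ A.inertiaSubgroupIn ℚ, σ x = x) : ∃ m : ℕ, (p : Qbar) ^ m * x ∈ A := by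
  rcases eq_or_ne x 0 with rfl | hx
  · exact ⟨0, by simp⟩
  obtain ⟨k, hk⟩ := exists_valuation_eq_zpow hp hA hx hfix
  refine ⟨(-k).toNat, ?_⟩
  rw [← A.valuation_le_one_iff, map_mul, map_pow, hk, ← zpow_natCast,
    ← zpow_add₀ (valuation_prime_ne_zero hp), ← zpow_zero (A.valuation (p : Qbar)),
    valuation_zpow_le_zpow_iff hp hA]
  omega

lemma inertiaFixedRing_isDiscreteValuationRing (hp : p.Prime) (hA : A.LiesOverPrime p) :
    IsDiscreteValuationRing (inertiaFixedRing A) := by
  let π : inertiaFixedRing A := ⟨(p : Qbar), natCast_mem_inertiaFixedRing p⟩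
  have hpne := valuation_prime_ne_zero (A := A) hp
  have hunit : ∀ z : inertiaFixedRing A, A.valuation (z : Qbar) = 1 → IsUnit z := by
    intro z hz
    have hz0 : (z : Qbar) ≠ 0 := by intro h; rw [h, map_zero] at hz; exact zero_ne_one hz
    refine IsUnit.of_mul_eq_one (⟨(z : Qbar)⁻¹, ?_, fun σ hσ => by
      rw [map_inv₀, z.2.2 σ hσ]⟩ : inertiaFixedRing A) (Subtype.ext (mul_inv_cancel₀ hz0))
    rw [← A.valuation_le_one_iff, map_inv₀, hz, inv_one]
  have hdecomp : ∀ z : inertiaFixedRing A, z ≠ 0 → ∃ n : ℕ, Associated (π ^ n) z ∧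
      A.valuation (z : Qbar) = A.valuation (p : Qbar) ^ n := by
    intro z hz
    have hz0 : (z : Qbar) ≠ 0 := fun h => hz (Subtype.ext h)
    obtain ⟨k, hk⟩ := exists_valuation_eq_zpow hp hA hz0 z.2.2
    have hk0 : 0 ≤ k := by
      rw [← valuation_zpow_le_zpow_iff hp hA, zpow_zero, ← hk]
      exact (A.valuation_le_one_iff _).mpr z.2.1
    lift k to ℕ using hk0
    rw [zpow_natCast] at hk
    have hw : A.valuation ((z : Qbar) / (p : Qbar) ^ k) = 1 := by
      rw [map_div₀, map_pow, hk, div_self (pow_ne_zero _ hpne)]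
    let w : inertiaFixedRing A := ⟨(z : Qbar) / (p : Qbar) ^ k,
      (A.valuation_le_one_iff _).mp hw.le,
      fun σ hσ => by rw [map_div₀, map_pow, map_natCast, z.2.2 σ hσ]⟩
    refine ⟨k, ⟨(hunit w hw).unit, Subtype.ext ?_⟩, hk⟩
    change (p : Qbar) ^ k * ((z : Qbar) / (p : Qbar) ^ k) = z
    exact mul_div_cancel₀ _ (pow_ne_zero _ (Nat.cast_ne_zero.mpr hp.ne_zero))
  have hnotunit : ∀ z : inertiaFixedRing A, A.valuation (z : Qbar) < 1 → ¬ IsUnit z := by
    intro z hz hu
    obtain ⟨w, hw⟩ := hu.exists_left_inv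
    have h := congrArg (fun t : inertiaFixedRing A => A.valuation (t : Qbar)) hw
    simp only [Subring.coe_mul, map_mul, Subring.coe_one, map_one] at h
    exact (h ▸ mul_lt_one_of_nonneg_of_lt_one_right
      ((A.valuation_le_one_iff _).mpr w.2.1) zero_le hz).false
  have hirr : Irreducible π := by
    refine ⟨hnotunit _ (valuation_prime_lt_one hA), fun a b hab => ?_⟩
    have hπ0 : π ≠ 0 := fun h => hp.ne_zero
      (Nat.cast_eq_zero (R := Qbar).mp (congrArg Subtype.val h))
    obtain ⟨m, -, hm⟩ := hdecomp a (by rintro rfl; exact hπ0 (by simp [hab]))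
    obtain ⟨n, -, hn⟩ := hdecomp b (by rintro rfl; exact hπ0 (by simp [hab]))
    have h := congrArg (fun t : inertiaFixedRing A => A.valuation (t : Qbar)) hab
    simp only [Subring.coe_mul, map_mul, hm, hn, ← pow_add] at h
    have h' : (1 : ℤ) = ((m + n : ℕ) : ℤ) := valuation_zpow_injective hp hA (by
      change A.valuation (p : Qbar) ^ (1 : ℤ) = A.valuation (p : Qbar) ^ ((m + n : ℕ) : ℤ)
      rw [zpow_one, zpow_natCast]; exact h)
    rcases Nat.eq_zero_or_pos m with rfl | h0
    · exact Or.inl (hunit a (by simpa using hm))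
    · obtain rfl : n = 0 := by omega
      exact Or.inr (hunit b (by simpa using hn))
  exact IsDiscreteValuationRing.ofHasUnitMulPowIrreducibleFactorization
    ⟨π, hirr, fun {z} hz => let ⟨n, hn, _⟩ := hdecomp z hz; ⟨n, hn⟩⟩

/-- An integral model of the inertia module `(M, act)` at the place `A`. -/
structure IntegralModel (A : ValuationSubring Qbar) {M : Type*} [AddCommGroup M]
    (act : Γℚ → M →+ M) where
  fns : Submodule (inertiaFixedRing A) (M → Qbar)
  fg : fns.FG
  fns_one_mem : (fun _ => (1 : Qbar)) ∈ fns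
  fns_mul_mem : ∀ a b, a ∈ fns → b ∈ fns → a * b ∈ fns
  comul : ∀ h ∈ fns, ∃ (n : ℕ) (a b : Fin n → M → Qbar),
    (∀ i, a i ∈ fns) ∧ (∀ i, b i ∈ fns) ∧ ∀ x y, h (x + y) = ∑ i, a i x * b i y
  apply_mem : ∀ h ∈ fns, ∀ x, h x ∈ A
  equivariant : ∀ σ ∈ A.inertiaSubgroupIn ℚ, ∀ h ∈ fns, ∀ x, h (act σ x) = σ (h x)
  separates : ∀ x, x ≠ 0 → ∃ h ∈ fns, h x ≠ h 0

variable {M : Type*} [AddCommGroup M] {act : Γℚ → M →+ M}

/-- Stability of a subgroup under inertia. -/
def IsInertiaStable (A : ValuationSubring Qbar) (act : Γℚ → M →+ M) (N : AddSubgroup M) : Prop :=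
  ∀ σ ∈ A.inertiaSubgroupIn ℚ, ∀ n ∈ N, act σ n ∈ N

namespace IntegralModel

variable (G : IntegralModel A act)

include G in
lemma act_injective {σ : Γℚ} (hσ : σ ∈ A.inertiaSubgroupIn ℚ) : Function.Injective (act σ) := by
  refine (injective_iff_map_eq_zero _).mpr fun x hx => ?_
  by_contra hne
  obtain ⟨h, hh, hne⟩ := G.separates x hne
  refine hne (σ.injective ?_)
  rw [← G.equivariant σ hσ h hh, ← G.equivariant σ hσ h hh, hx, map_zero]

include G in
lemma act_surjective [Finite M] {σ : Γℚ} (hσ : σ ∈ A.inertiaSubgroupIn ℚ) :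
    Function.Surjective (act σ) :=
  Finite.injective_iff_surjective.mp (G.act_injective hσ)

include G in
lemma exists_preimage_mem [Finite M] {N : AddSubgroup M} (hN : IsInertiaStable A act N)
    {σ : Γℚ} (hσ : σ ∈ A.inertiaSubgroupIn ℚ) {n : M} (hn : n ∈ N) :
    ∃ m ∈ N, act σ m = n := by
  have hinj : Function.Injective fun m : N => (⟨act σ m, hN σ hσ _ m.2⟩ : N) := fun a b h =>
    Subtype.ext (G.act_injective hσ (congrArg Subtype.val h))
  obtain ⟨m, hm⟩ := (Finite.injective_iff_surjective.mp hinj) ⟨n, hn⟩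
  exact ⟨m, m.2, congrArg Subtype.val hm⟩

include G in
lemma mem_of_act_mem [Finite M] {N : AddSubgroup M} (hN : IsInertiaStable A act N)
    {σ : Γℚ} (hσ : σ ∈ A.inertiaSubgroupIn ℚ) {x : M} (hx : act σ x ∈ N) : x ∈ N := by
  obtain ⟨m, hm, hmx⟩ := G.exists_preimage_mem hN hσ hx
  exact G.act_injective hσ hmx ▸ hm

end IntegralModel

/-- Inertia-equivariant functions which are independent over the fixed ring are independent
over `ℚ̄`. -/
lemma linearIndependent_of_equivariant (hp : p.Prime) (hA : A.LiesOverPrime p) {X ι : Type*}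
    (act' : Γℚ → X → X) (hsurj : ∀ σ ∈ A.inertiaSubgroupIn ℚ, Function.Surjective (act' σ))
    (v : ι → X → Qbar) (heq : ∀ σ ∈ A.inertiaSubgroupIn ℚ, ∀ i x, v i (act' σ x) = σ (v i x))
    (hli : LinearIndependent (inertiaFixedRing A) v) : LinearIndependent Qbar v := by
  classical
  rw [linearIndependent_iff']
  intro s
  induction s using Finset.induction_on with
  | empty => simp
  | @insert a s has ih =>
    intro c hc
    rcases eq_or_ne (c a) 0 with hca | hca
    · rw [Finset.sum_insert has, hca, zero_smul, zero_add] at hc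
      intro i hi
      rcases Finset.mem_insert.mp hi with rfl | hi
      exacts [hca, ih c hc i hi]
    exfalso
    let d : ι → Qbar := fun i => c i / c a
    have hd : ∀ x, ∑ i ∈ insert a s, d i * v i x = 0 := by
      intro x
      have := congrFun hc x
      simp only [Finset.sum_apply, Pi.smul_apply, smul_eq_mul, Pi.zero_apply] at this
      calc ∑ i ∈ insert a s, d i * v i x = (∑ i ∈ insert a s, c i * v i x) / c a := by
            rw [Finset.sum_div]; exact Finset.sum_congr rfl fun i _ => by simp only [d]; ring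
        _ = 0 := by rw [this, zero_div]
    have hfix : ∀ i ∈ insert a s, ∀ σ ∈ A.inertiaSubgroupIn ℚ, σ (d i) = d i := by
      intro i hi σ hσ
      rcases Finset.mem_insert.mp hi with rfl | hi
      · simp [d, hca]
      have hz : ∑ i ∈ s, (σ (d i) - d i) • v i = 0 := by
        funext x
        obtain ⟨y, rfl⟩ := hsurj σ hσ x
        simp only [Finset.sum_apply, Pi.smul_apply, smul_eq_mul, Pi.zero_apply, sub_mul,
          Finset.sum_sub_distrib]
        have h1 : σ (∑ i ∈ insert a s, d i * v i y) = 0 := by rw [hd, map_zero]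
        have h2 := hd (act' σ y)
        rw [Finset.sum_insert has] at h1 h2
        simp only [map_add, map_mul, map_sum, ← heq σ hσ] at h1
        simp only [d, div_self hca, map_one, one_mul] at h1 h2
        linear_combination h1 - h2
      exact sub_eq_zero.mp (ih _ hz i hi)
    have hm : ∀ i ∈ insert a s, ∃ m : ℕ, (p : Qbar) ^ m * d i ∈ A := fun i hi =>
      exists_pow_mul_mem_A hp hA (hfix i hi)
    choose! m hm using hm
    let m0 := (insert a s).sup m
    have hmem : ∀ i ∈ insert a s, (p : Qbar) ^ m0 * d i ∈ inertiaFixedRing A := fun i hi => by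
      refine ⟨?_, fun σ hσ => by rw [map_mul, map_pow, map_natCast, hfix i hi σ hσ]⟩
      rw [show m0 = (m0 - m i) + m i from (Nat.sub_add_cancel (Finset.le_sup (f := m) hi)).symm,
        pow_add, mul_assoc]
      exact mul_mem (pow_mem (natCast_mem A p) _) (hm i hi)
    let g : ι → inertiaFixedRing A := fun i =>
      if hi : i ∈ insert a s then ⟨_, hmem i hi⟩ else 0
    have hg : ∑ i ∈ insert a s, g i • v i = 0 := by
      funext x
      simp only [Finset.sum_apply, Pi.zero_apply]
      calc ∑ i ∈ insert a s, (g i • v i) x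
          = ∑ i ∈ insert a s, (p : Qbar) ^ m0 * (d i * v i x) :=
            Finset.sum_congr rfl fun i hi => by
              simp only [g, dif_pos hi, Pi.smul_apply, Subring.smul_def, smul_eq_mul]; ring
        _ = 0 := by rw [← Finset.mul_sum, hd, mul_zero]
    have h0 := linearIndependent_iff'.mp hli _ g hg a (Finset.mem_insert_self a s)
    have := congrArg Subtype.val h0
    simp [g, d, hca, hp.ne_zero] at this

end FermatLib.Galois.Flat
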